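/-
S55 / Alg (U0): multiplicative 3-cochains, DEFINITIONS (sorry-free).
Same style as Mathlib's `groupCohomology.IsMulCocycle₂` / `IsMulCoboundary₂` and `CohomDefs.lean`.
-/
import Mathlib

set_option autoImplicit false

namespace Fermat.Agent.S55

section Defs3

variable {G : Type} [Group G] {X : Type} [CommGroup X]

/-- multiplicative `3`-cocycle: `d f = 1`, where
`(d f)(g,h,j,l) = g • f(h,j,l) / f(gh,j,l) * f(g,hj,l) / f(g,h,jl) * f(g,h,j)` -/
def IsMulCocycle₃ [MulDistribMulAction G X] (f : G × G × G → X) : Prop :=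
  ∀ g h j l : G,
    g • f (h, j, l) * f (g, h * j, l) * f (g, h, j) = f (g * h, j, l) * f (g, h, j * l)

/-- multiplicative `3`-coboundary: `f = d c` with Mathlib's convention
`(d c)(g,h,j) = g • c(h,j) / c(gh,j) * c(g,hj) / c(g,h)` -/
def IsMulCoboundary₃ [MulDistribMulAction G X] (f : G × G × G → X) : Prop :=
  ∃ c : G × G → X, ∀ g h j : G,
    g • c (h, j) / c (g * h, j) * c (g, h * j) / c (g, h) = f (g, h, j)

/-- Pull-back of a `3`-cochain along a group hom `ρ : H → G` and a coefficient hom `j : X → Y`. -/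
def pullCochain₃ {H Y : Type} (ρ : H → G) (j : X → Y) (f : G × G × G → X) : H × H × H → Y :=
  fun p => j (f (ρ p.1, ρ p.2.1, ρ p.2.2))

end Defs3

end Fermat.Agent.S55
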