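import Mathlib

set_option autoImplicit false

/-!
# S55 / Alg: dimension shifting, DEFINITIONS (sorry-free)

For `A : Rep k G` the coinduced module `dsFun A = Fun(G, A)` with `G` acting by right translation
`(g • f) x = f (x * g)`, the embedding `dsι A : A ⟶ dsFun A`, `a ↦ (x ↦ ρ x a)`, the quotient
`dsUp A = dsFun A / A` and the short exact sequence `dsSES A : 0 ⟶ A ⟶ dsFun A ⟶ dsUp A ⟶ 0`.
-/

namespace Fermat.Agent.S55

open CategoryTheory Rep

universe u

variable {k G : Type u} [CommRing k] [Group G]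

/-- the representation of `G` on `G → V` by right translation `(g • f) x = f (x * g)` -/
def dsFunRep (V : Type u) [AddCommGroup V] [Module k V] : Representation k G (G → V) where
  toFun g :=
    { toFun := fun f x => f (x * g)
      map_add' := fun _ _ => rfl
      map_smul' := fun _ _ => rfl }
  map_one' := by ext f x; simp
  map_mul' g h := by ext f x; simp [mul_assoc]

@[simp] lemma dsFunRep_apply (V : Type u) [AddCommGroup V] [Module k V] (g : G) (f : G → V)
    (x : G) : dsFunRep (k := k) V g f x = f (x * g) := rfl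

/-- `Fun(G, A)` with the right translation action: the coinduced module of `A` from the trivial
subgroup -/
def dsFun (A : Rep.{u, u, u} k G) : Rep.{u, u, u} k G := Rep.of (dsFunRep (k := k) (G := G) A.V)

@[simp] lemma dsFun_ρ_apply (A : Rep.{u, u, u} k G) (g : G) (f : G → A.V) (x : G) :
    (dsFun A).ρ g f x = f (x * g) := rfl

/-- the embedding `a ↦ (x ↦ ρ x a)` of `A` into `Fun(G, A)` -/
def dsι (A : Rep.{u, u, u} k G) : A ⟶ dsFun A :=
  Rep.ofHom (ρ := A.ρ) (σ := dsFunRep (k := k) (G := G) A.V)
    ⟨{ toFun := fun a x => A.ρ x a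
       map_add' := fun a b => by funext x; simp
       map_smul' := fun c a => by funext x; simp }, fun g => by
      ext a x
      simp [map_mul]⟩

@[simp] lemma dsι_apply (A : Rep.{u, u, u} k G) (a : A.V) (x : G) :
    (dsι A).hom a x = A.ρ x a := rfl

lemma dsι_injective (A : Rep.{u, u, u} k G) : Function.Injective (dsι A).hom := by
  intro a b h
  have := congrFun h 1
  simpa using this

lemma dsι_range_le_comap (A : Rep.{u, u, u} k G) (g : G) :
    LinearMap.range (dsι A).hom.toLinearMap ≤
      (LinearMap.range (dsι A).hom.toLinearMap).comap ((dsFun A).ρ g) := by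
  rintro _ ⟨a, rfl⟩
  refine ⟨A.ρ g a, ?_⟩
  funext x
  simp [map_mul]

/-- the quotient `Fun(G, A) / A`, whose cohomology is that of `A` shifted by one -/
def dsUp (A : Rep.{u, u, u} k G) : Rep.{u, u, u} k G :=
  (dsFun A).quotient (LinearMap.range (dsι A).hom.toLinearMap) (dsι_range_le_comap A)

/-- the projection `Fun(G, A) ⟶ Fun(G, A) / A` -/
def dsπ (A : Rep.{u, u, u} k G) : dsFun A ⟶ dsUp A :=
  (dsFun A).mkQ (LinearMap.range (dsι A).hom.toLinearMap) (dsι_range_le_comap A)

lemma dsπ_surjective (A : Rep.{u, u, u} k G) : Function.Surjective (dsπ A).hom :=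
  Submodule.mkQ_surjective _

lemma dsπ_apply_eq_zero_iff (A : Rep.{u, u, u} k G) (f : G → A.V) :
    (dsπ A).hom f = 0 ↔ ∃ a : A.V, (dsι A).hom a = f := by
  change (Submodule.mkQ _) f = 0 ↔ _
  rw [← LinearMap.mem_ker, Submodule.ker_mkQ]
  rfl

@[reassoc (attr := simp)]
lemma dsι_comp_dsπ (A : Rep.{u, u, u} k G) : dsι A ≫ dsπ A = 0 := by
  ext a
  exact (dsπ_apply_eq_zero_iff A _).2 ⟨a, rfl⟩

/-- the dimension shifting short exact sequence `0 ⟶ A ⟶ Fun(G, A) ⟶ Fun(G, A) / A ⟶ 0` -/
def dsSES (A : Rep.{u, u, u} k G) : ShortComplex (Rep.{u, u, u} k G) :=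
  ShortComplex.mk (dsι A) (dsπ A) (dsι_comp_dsπ A)

/-- elementwise criterion for short exactness in `Rep k G` -/
lemma ga_shortExact_of (S : ShortComplex (Rep.{u, u, u} k G))
    (hf : Function.Injective S.f.hom) (hg : Function.Surjective S.g.hom)
    (hex : ∀ x : S.X₂.V, S.g.hom x = 0 → ∃ y : S.X₁.V, S.f.hom y = x) : S.ShortExact where
  exact := by
    rw [← ShortComplex.exact_map_iff_of_faithful S (forget₂ (Rep k G) (ModuleCat k))]
    rw [ShortComplex.moduleCat_exact_iff]
    intro x hx
    exact hex x hx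
  mono_f := (Rep.mono_iff_injective _).2 hf
  epi_g := (Rep.epi_iff_surjective _).2 hg

lemma dsSES_shortExact (A : Rep.{u, u, u} k G) : (dsSES A).ShortExact :=
  ga_shortExact_of (dsSES A) (dsι_injective A) (dsπ_surjective A)
    fun x hx => (dsπ_apply_eq_zero_iff A x).1 hx

instance ds_quotientToInvariantsFunctor_preservesZeroMorphisms (S : Subgroup G) [S.Normal] :
    (quotientToInvariantsFunctor.{u, u, u} k S).PreservesZeroMorphisms where
  map_zero _ _ := by
    ext x
    rfl

end Fermat.Agent.S55
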