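import Mathlib
import Fermat.Agent.S55.Alg.DimShiftDefs

set_option autoImplicit false

/-!
# S55 / GA4b: periodicity for finite cyclic groups

`H¹(G, A) = 0 ⇒ H³(G, A) = 0` for a finite cyclic group `G`
(Mathlib `Rep.FiniteCyclicGroup.groupCohomologyIsoOdd` twice).
-/

namespace Fermat.Agent.S55

open CategoryTheory CategoryTheory.Limits groupCohomology Rep

universe u

variable {k G : Type u} [CommRing k] [Group G]

/-- all odd cohomology groups of a finite cyclic group are isomorphic -/
theorem ga4_nonempty_iso_odd [Finite G] [IsCyclic G] (A : Rep k G) {i j : ℕ} (hi : Odd i)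
    (hj : Odd j) : Nonempty (groupCohomology A i ≅ groupCohomology A j) := by
  let _ : CommGroup G := IsCyclic.commGroup
  let _ : Fintype G := Fintype.ofFinite G
  obtain ⟨g, hg⟩ := IsCyclic.exists_generator (α := G)
  exact ⟨Rep.FiniteCyclicGroup.groupCohomologyIsoOdd A g hg i hi ≪≫
    (Rep.FiniteCyclicGroup.groupCohomologyIsoOdd A g hg j hj).symm⟩

/-- all even cohomology groups in positive degree of a finite cyclic group are isomorphic -/
theorem ga4_nonempty_iso_even [Finite G] [IsCyclic G] (A : Rep k G) {i j : ℕ} (hi : Even i)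
    (hj : Even j) (hi0 : i ≠ 0) (hj0 : j ≠ 0) :
    Nonempty (groupCohomology A i ≅ groupCohomology A j) := by
  let _ : CommGroup G := IsCyclic.commGroup
  let _ : Fintype G := Fintype.ofFinite G
  have : NeZero i := ⟨hi0⟩
  have : NeZero j := ⟨hj0⟩
  obtain ⟨g, hg⟩ := IsCyclic.exists_generator (α := G)
  exact ⟨Rep.FiniteCyclicGroup.groupCohomologyIsoEven A g hg i hi ≪≫
    (Rep.FiniteCyclicGroup.groupCohomologyIsoEven A g hg j hj).symm⟩

theorem ga4_isZero_H3_of_isZero_H1 [Finite G] [IsCyclic G] (A : Rep k G)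
    (h : IsZero (groupCohomology A 1)) : IsZero (groupCohomology A 3) := by
  obtain ⟨e⟩ := ga4_nonempty_iso_odd A (i := 3) (j := 1) ⟨1, rfl⟩ ⟨0, rfl⟩
  exact IsZero.of_iso h e

end Fermat.Agent.S55
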