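import Mathlib
import Fermat.Agent.S55.Alg.DimShiftDefs

set_option autoImplicit false

/-!
# S55 / Alg, leaf DS-B: naturality of the connecting homomorphism under change of group
-/

namespace Fermat.Agent.S55

open CategoryTheory CategoryTheory.Limits groupCohomology Rep

universe u

variable {k G : Type u} [CommRing k] [Group G]

theorem ga_δ_naturality {H : Type u} [Group H] (f : H →* G) {X : ShortComplex (Rep k G)}
    {Y : ShortComplex (Rep k H)} (hX : X.ShortExact) (hY : Y.ShortExact)
    (φ : X.map (resFunctor f) ⟶ Y) (i j : ℕ) (hij : i + 1 = j) :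
    δ hX i j hij ≫ map f φ.τ₁ j = map f φ.τ₃ i ≫ δ hY i j hij := by
  let F : X.map (cochainsFunctor k G) ⟶ Y.map (cochainsFunctor k H) :=
    ShortComplex.homMk (cochainsMap f φ.τ₁) (cochainsMap f φ.τ₂) (cochainsMap f φ.τ₃)
      (by
        exact congrArg (cochainsMap (A := X.X₁) (B := Y.X₂) f) φ.comm₁₂)
      (by
        exact congrArg (cochainsMap (A := X.X₂) (B := Y.X₃) f) φ.comm₂₃)
  exact HomologicalComplex.HomologySequence.δ_naturality F
    (map_cochainsFunctor_shortExact hX) (map_cochainsFunctor_shortExact hY) i j hij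

theorem ga_map_one {H : Type u} [Group H] {A : Rep k H} {B : Rep k G}
    (φ : res (1 : G →* H) A ⟶ B) (n : ℕ) : map (1 : G →* H) φ (n + 1) = 0 := by
  have hz : IsZero (groupCohomology (res (⊥ : Subgroup H).subtype A) (n + 1)) :=
    isZero_groupCohomology_succ_of_subsingleton _ _
  let ψ : res (1 : G →* (⊥ : Subgroup H)) (res (⊥ : Subgroup H).subtype A) ⟶ B := φ
  have h := map_comp (A := A) (B := res (⊥ : Subgroup H).subtype A) (C := B)
    (⊥ : Subgroup H).subtype (1 : G →* (⊥ : Subgroup H)) (𝟙 _) ψ (n + 1)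
  have e2 : (resFunctor (1 : G →* (⊥ : Subgroup H))).map (𝟙 (res (⊥ : Subgroup H).subtype A)) ≫ ψ
      = ψ := by
    rw [CategoryTheory.Functor.map_id, Category.id_comp]
  rw [e2] at h
  have e : map (1 : G →* H) φ (n + 1) =
      map ((⊥ : Subgroup H).subtype.comp (1 : G →* (⊥ : Subgroup H))) ψ (n + 1) := rfl
  rw [e, h, hz.eq_zero_of_tgt (map (⊥ : Subgroup H).subtype (𝟙 _) (n + 1)), zero_comp]

end Fermat.Agent.S55
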