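import Mathlib
import Fermat.Agent.S55.Alg.DimShiftDefs

set_option autoImplicit false

/-!
# S55 / Alg, leaf DS-A: `Fun(G, A)` is acyclic for `G` and for every group mapping injectively
to `G`.
-/

namespace Fermat.Agent.S55

open CategoryTheory CategoryTheory.Limits groupCohomology Rep

universe u

variable {k G : Type u} [CommRing k] [Group G]

/-- `Fun(G, V)` with right translation is the module coinduced from the trivial subgroup. -/
noncomputable def dsaCoindEquiv (V : Type u) [AddCommGroup V] [Module k V] :
    (dsFunRep (k := k) (G := G) V).Equiv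
      (Representation.coind (⊥ : Subgroup G).subtype
        (Representation.trivial k (⊥ : Subgroup G) V)) :=
  Representation.Equiv.mk
    { toFun := fun f => ⟨f, fun g h => by
        have hg : (g : G) = 1 := Subgroup.mem_bot.mp g.2
        simp [hg]⟩
      map_add' := fun _ _ => rfl
      map_smul' := fun _ _ => rfl
      invFun := fun f => f.1
      left_inv := fun _ => rfl
      right_inv := fun _ => rfl }
    (fun g => by
      ext f x
      rfl)

theorem ds_isZero_fun (A : Rep k G) (n : ℕ) : IsZero (groupCohomology (dsFun A) (n + 1)) := by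
  have e1 : dsFun A ≅ coind (⊥ : Subgroup G).subtype (Rep.trivial k (⊥ : Subgroup G) A.V) :=
    Rep.mkIso (dsaCoindEquiv (k := k) (G := G) A.V)
  have e2 := (groupCohomology.functor k G (n + 1)).mapIso e1
  have e3 := groupCohomology.coindIso (Rep.trivial k (⊥ : Subgroup G) A.V) (n + 1)
  exact (isZero_groupCohomology_succ_of_subsingleton _ n).of_iso (e2 ≪≫ e3)

section Res

variable {H : Type u} [Group H] (f : H →* G)

/-- `(x f(H)).out⁻¹ * x` lies in the range of `f`. -/
theorem dsa_out_inv_mul_mem (x : G) :
    ((QuotientGroup.mk x : G ⧸ f.range).out)⁻¹ * x ∈ f.range := by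
  rw [← QuotientGroup.eq]
  exact QuotientGroup.out_eq' _

/-- the `H`-coordinate `η x` of `x = (x f(H)).out * f (η x)` -/
noncomputable def dsaEta (x : G) : H := Classical.choose (dsa_out_inv_mul_mem f x)

theorem dsaEta_spec (x : G) :
    f (dsaEta f x) = ((QuotientGroup.mk x : G ⧸ f.range).out)⁻¹ * x :=
  Classical.choose_spec (dsa_out_inv_mul_mem f x)

theorem dsa_out_mul_eta (x : G) :
    (QuotientGroup.mk x : G ⧸ f.range).out * f (dsaEta f x) = x := by
  rw [dsaEta_spec, mul_inv_cancel_left]

theorem dsa_mk_out_mul (c : G ⧸ f.range) (t : H) :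
    (QuotientGroup.mk (c.out * f t) : G ⧸ f.range) = c := by
  have ht : f t ∈ f.range := ⟨t, rfl⟩
  rw [QuotientGroup.mk_mul_of_mem _ ht]
  exact QuotientGroup.out_eq' c

theorem dsaEta_out_mul (hf : Function.Injective f) (c : G ⧸ f.range) (t : H) :
    dsaEta f (c.out * f t) = t := by
  apply hf
  rw [dsaEta_spec, dsa_mk_out_mul, inv_mul_cancel_left]

/-- `Fun(G, V)` restricted to `H ↪ G` is `Fun(H, Fun(G ⧸ f(H), V))`. -/
noncomputable def dsaResEquiv (hf : Function.Injective f) (V : Type u) [AddCommGroup V]
    [Module k V] :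
    Representation.Equiv
      (((dsFunRep (k := k) (G := G) V).comp f : H →* ((G → V) →ₗ[k] (G → V))) :
        Representation k H (G → V))
      (dsFunRep (k := k) (G := H) ((G ⧸ f.range) → V)) :=
  Representation.Equiv.mk
    { toFun := fun φ t c => φ (c.out * f t)
      map_add' := fun _ _ => rfl
      map_smul' := fun _ _ => rfl
      invFun := fun ψ x => ψ (dsaEta f x) (QuotientGroup.mk x)
      left_inv := fun φ => by
        funext x
        change φ ((QuotientGroup.mk x : G ⧸ f.range).out * f (dsaEta f x)) = φ x
        rw [dsa_out_mul_eta]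
      right_inv := fun ψ => by
        funext t c
        change ψ (dsaEta f (c.out * f t)) (QuotientGroup.mk (c.out * f t)) = ψ t c
        rw [dsaEta_out_mul f hf, dsa_mk_out_mul] }
    (fun h => by
      ext φ t c
      change φ (c.out * f t * f h) = φ (c.out * f (t * h))
      rw [map_mul, mul_assoc])

theorem ds_isZero_res_fun (hf : Function.Injective f)
    (A : Rep k G) (n : ℕ) : IsZero (groupCohomology (res f (dsFun A)) (n + 1)) := by
  have e1 : res f (dsFun A) ≅ dsFun (Rep.trivial k H ((G ⧸ f.range) → A.V)) :=
    Rep.mkIso (dsaResEquiv (k := k) f hf A.V)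
  have e2 := (groupCohomology.functor k H (n + 1)).mapIso e1
  exact (ds_isZero_fun (Rep.trivial k H ((G ⧸ f.range) → A.V)) n).of_iso e2

end Res

end Fermat.Agent.S55
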