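import Mathlib
import Fermat.Agent.S55.Alg.DimShiftDefs
import Fermat.Agent.S55.Alg.DimShiftAcyclic

set_option autoImplicit false

/-!
# S55 / Alg, leaf DS-C: invariants of `Fun(G, A)` under a normal subgroup
-/

namespace Fermat.Agent.S55

open CategoryTheory CategoryTheory.Limits groupCohomology Rep

universe u

variable {k G : Type u} [CommRing k] [Group G]

section

variable (V : Type u) [AddCommGroup V] [Module k V] (S : Subgroup G) [S.Normal]

omit [S.Normal] in
lemma dsInv_mem_iff (φ : G → V) :
    φ ∈ Representation.invariants ((dsFunRep (k := k) (G := G) V).comp S.subtype) ↔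
      ∀ (x : G) (s : G), s ∈ S → φ (x * s) = φ x := by
  constructor
  · intro h x s hs
    exact congrFun (h ⟨s, hs⟩) x
  · intro h s
    funext x
    exact h x s.1 s.2

/-- `S`-invariant functions on `G` are the functions on `G ⧸ S` -/
noncomputable def dsInvLinearEquiv :
    Representation.invariants ((dsFunRep (k := k) (G := G) V).comp S.subtype) ≃ₗ[k] ((G ⧸ S) → V) where
  toFun φ := fun c => Quotient.liftOn' c φ.1 (by
    intro a b hab
    rw [QuotientGroup.leftRel_apply] at hab
    have := (dsInv_mem_iff V S φ.1).1 φ.2 a _ hab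
    rw [mul_inv_cancel_left] at this
    exact this.symm)
  map_add' φ ψ := by
    funext c
    induction c using QuotientGroup.induction_on
    rfl
  map_smul' r φ := by
    funext c
    induction c using QuotientGroup.induction_on
    rfl
  invFun ψ := ⟨fun x => ψ (x : G ⧸ S), (dsInv_mem_iff V S _).2 (by
    intro x s hs
    congr 1
    exact (QuotientGroup.mk_mul_of_mem x hs))⟩
  left_inv φ := by
    apply Subtype.ext
    funext x
    rfl
  right_inv ψ := by
    funext c
    induction c using QuotientGroup.induction_on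
    rfl

omit [S.Normal] in
lemma dsInvLinearEquiv_apply_mk (φ : Representation.invariants ((dsFunRep (k := k) (G := G) V).comp S.subtype))
    (x : G) : dsInvLinearEquiv V S φ (x : G ⧸ S) = φ.1 x := rfl

/-- the equivalence of `G ⧸ S`-representations `Fun(G, V)^S ≃ Fun(G ⧸ S, V)` -/
noncomputable def dsInvEquiv :
    ((dsFunRep (k := k) (G := G) V).quotientToInvariants S).Equiv
      (dsFunRep (k := k) (G := G ⧸ S) V) :=
  Representation.Equiv.mk (dsInvLinearEquiv V S) (by
    intro g
    induction g using QuotientGroup.induction_on with | H g =>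
    ext φ c
    induction c using QuotientGroup.induction_on with | H x =>
    rfl)

end

theorem ds_isZero_inv_fun (A : Rep k G) (S : Subgroup G) [S.Normal] (n : ℕ) :
    IsZero (groupCohomology ((dsFun A).quotientToInvariants S) (n + 1)) := by
  have e : (dsFun A).quotientToInvariants S ≅ dsFun (Rep.trivial k (G ⧸ S) A.V) :=
    Rep.mkIso (dsInvEquiv A.V S)
  exact IsZero.of_iso (ds_isZero_fun _ n) ((functor k (G ⧸ S) (n + 1)).mapIso e)

/-- `H¹(S, A) = 0` in cocycle form -/
lemma ds_H1_cocycle_form {A : Rep k G} {S : Subgroup G}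
    (h1 : IsZero (groupCohomology (res S.subtype A) 1))
    (u : S → A.V) (hu : ∀ s t : S, u (s * t) = A.ρ s (u t) + u s) :
    ∃ a : A.V, ∀ s : S, u s = A.ρ s a - a := by
  have hmem : u ∈ cocycles₁ (res S.subtype A) := (mem_cocycles₁_iff (A := res S.subtype A) u).2 hu
  have : H1π (res S.subtype A) ⟨u, hmem⟩ = 0 := by
    have := ModuleCat.subsingleton_of_isZero h1
    exact Subsingleton.elim _ _
  rw [H1π_eq_zero_iff] at this
  obtain ⟨a, ha⟩ := this
  exact ⟨a, fun s => (congrFun ha s).symm⟩

theorem ds_inv_shortExact (A : Rep k G) (S : Subgroup G) [S.Normal]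
    (h1 : IsZero (groupCohomology (res S.subtype A) 1)) :
    ((dsSES A).map (quotientToInvariantsFunctor k S)).ShortExact := by
  apply ga_shortExact_of
  · -- injectivity
    intro x y hxy
    apply Subtype.ext
    apply dsι_injective A
    exact congrArg Subtype.val hxy
  · -- surjectivity
    intro z
    obtain ⟨ψ, hψ⟩ := dsπ_surjective A z.1
    have hz : ∀ s : S, (dsUp A).ρ s z.1 = z.1 := fun s => z.2 s
    have hker : ∀ s : S, ∃ a : A.V, (dsι A).hom a = (dsFun A).ρ s ψ - ψ := by
      intro s
      apply (dsπ_apply_eq_zero_iff A _).1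
      rw [map_sub, hψ]
      have := hom_comm_apply (dsπ A) (s : G) ψ
      rw [this, hψ, hz s]
      exact sub_self _
    choose a ha using hker
    have hcoc : ∀ s t : S, a (s * t) = A.ρ s (a t) + a s := by
      intro s t
      apply dsι_injective A
      rw [map_add, ha, ha]
      have := hom_comm_apply (dsι A) (s : G) (a t)
      rw [this, ha, map_sub, Subgroup.coe_mul, map_mul]
      simp only [Module.End.mul_apply]
      abel
    obtain ⟨b, hb⟩ := ds_H1_cocycle_form h1 a hcoc
    have hinv : ψ - (dsι A).hom b ∈
        Representation.invariants ((dsFun A).ρ.comp S.subtype) := by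
      intro s
      change (dsFun A).ρ s (ψ - (dsι A).hom b) = ψ - (dsι A).hom b
      have e1 := hom_comm_apply (dsι A) (s : G) b
      have e2 := ha s
      rw [hb s, map_sub] at e2
      rw [map_sub, ← e1]
      have : (dsFun A).ρ s ψ = (dsι A).hom (A.ρ s b) - (dsι A).hom b + ψ := by
        rw [e2]; abel
      rw [this]; abel
    refine ⟨⟨ψ - (dsι A).hom b, hinv⟩, ?_⟩
    apply Subtype.ext
    change (dsπ A).hom (ψ - (dsι A).hom b) = z.1
    rw [map_sub, hψ, (dsπ_apply_eq_zero_iff A _).2 ⟨b, rfl⟩]
    exact sub_zero _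
  · -- exactness in the middle
    intro x hx
    have hx' : (dsπ A).hom x.1 = 0 := congrArg Subtype.val hx
    obtain ⟨a, ha⟩ := (dsπ_apply_eq_zero_iff A _).1 hx'
    have hinv : a ∈ Representation.invariants (A.ρ.comp S.subtype) := by
      intro s
      apply dsι_injective A
      have e1 := hom_comm_apply (dsι A) (s : G) a
      change (dsι A).hom (A.ρ s a) = (dsι A).hom a
      rw [e1, ha]
      exact x.2 s
    exact ⟨⟨a, hinv⟩, Subtype.ext ha⟩

end Fermat.Agent.S55
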