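import Mathlib

set_option autoImplicit false

/-!
# S55 / Alg, GA8: vanishing of the cohomology of a (possibly infinite) direct sum, finite group

`A : Rep k G`, `G` finite, with a family of endomorphisms `e i = p i ≫ j i` factoring through
representations `B i` with `Hⁿ(G, B i) = 0`, such that every `a : A` is the sum of finitely many
`e i a` and `e i a = 0` for the other `i` (e.g. `A = ⨁ B i`). Then `Hⁿ(G, A) = 0`.
-/

namespace Fermat.Agent.S55

open CategoryTheory CategoryTheory.Limits groupCohomology Rep

universe u

variable {k G : Type u} [CommRing k] [Group G]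

/-- additivity of `groupCohomology.map` in the coefficient morphism, for finite sums -/
lemma ga8_map_sum {A B : Rep k G} {ι : Type*} (T : Finset ι) (φ : ι → (A ⟶ B)) (n : ℕ) :
    map (MonoidHom.id G) (∑ i ∈ T, φ i) n = ∑ i ∈ T, map (MonoidHom.id G) (φ i) n := by
  change (HomologicalComplex.homologyFunctor _ _ n).map ((cochainsFunctor k G).map (∑ i ∈ T, φ i))
    = ∑ i ∈ T, (HomologicalComplex.homologyFunctor _ _ n).map ((cochainsFunctor k G).map (φ i))
  rw [Functor.map_sum, Functor.map_sum]

/-- an endomorphism which fixes (pointwise) all values of a cocycle fixes its class -/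
lemma ga8_map_π_eq_self {A : Rep k G} (φ : A ⟶ A) (n : ℕ) (z : cocycles A n)
    (h : ∀ g : Fin n → G, φ.hom (iCocycles A n z g) = iCocycles A n z g) :
    map (MonoidHom.id G) φ n (π A n z) = π A n z := by
  have h1 : cocyclesMap (MonoidHom.id G) φ n z = z := by
    apply (ModuleCat.mono_iff_injective (iCocycles A n)).1 inferInstance
    have := congrArg (fun ψ => ψ.hom z)
      (HomologicalComplex.cyclesMap_i (cochainsMap (MonoidHom.id G) φ) n)
    simp only [ModuleCat.hom_comp, LinearMap.comp_apply] at this
    refine this.trans ?_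
    funext g
    exact h g
  have h2 := congrArg (fun ψ => ψ.hom z) (π_map (MonoidHom.id G) φ n)
  simp only [ModuleCat.hom_comp, LinearMap.comp_apply] at h2
  refine h2.trans ?_
  exact congrArg _ h1

theorem ga8_isZero_of_decomposition [Finite G] (A : Rep k G) {ι : Type*} (B : ι → Rep k G)
    (p : ∀ i, A ⟶ B i) (j : ∀ i, B i ⟶ A) (n : ℕ)
    (hB : ∀ i, IsZero (groupCohomology (B i) n))
    (hdec : ∀ a : A.V, ∃ T : Finset ι, (∀ i, i ∉ T → (p i).hom a = 0) ∧
      a = ∑ i ∈ T, (j i).hom ((p i).hom a)) :
    IsZero (groupCohomology A n) := by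
  classical
  have hsub : ∀ x : groupCohomology A n, x = 0 := by
    intro x
    induction x using groupCohomology_induction_on with | h z =>
    have : Fintype (Fin n → G) := Fintype.ofFinite _
    choose T hT0 hT using hdec
    let f : (Fin n → G) → A.V := iCocycles A n z
    let TT : Finset ι := Finset.univ.biUnion (fun g : Fin n → G => T (f g))
    have hfix : ∀ g : Fin n → G, (∑ i ∈ TT, p i ≫ j i).hom (f g) = f g := by
      intro g
      have hsubset : T (f g) ⊆ TT := Finset.subset_biUnion_of_mem (fun g => T (f g))
        (Finset.mem_univ g)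
      have e1 : (∑ i ∈ TT, p i ≫ j i).hom (f g) = ∑ i ∈ TT, (j i).hom ((p i).hom (f g)) := by
        rw [Rep.sum_hom, Representation.IntertwiningMap.sum_apply]
        rfl
      rw [e1, ← Finset.sum_subset hsubset (fun i _ hi => by rw [hT0 (f g) i hi, map_zero])]
      exact (hT (f g)).symm
    have h1 := ga8_map_π_eq_self (∑ i ∈ TT, p i ≫ j i) n z hfix
    rw [ga8_map_sum] at h1
    rw [← h1]
    have hz : ∀ i, map (MonoidHom.id G) (p i ≫ j i) n = 0 := by
      intro i
      rw [map_id_comp, (hB i).eq_zero_of_tgt (map (MonoidHom.id G) (p i) n), zero_comp]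
    simp [hz]
  have : Subsingleton (groupCohomology A n) := ⟨fun a b => (hsub a).trans (hsub b).symm⟩
  exact ModuleCat.isZero_of_subsingleton _

/-- in a short exact sequence, vanishing of `Hⁿ` of both ends implies vanishing of `Hⁿ` of the
middle term -/
theorem ga8_isZero_mid {X : ShortComplex (Rep k G)} (hX : X.ShortExact) (n : ℕ)
    (h1 : IsZero (groupCohomology X.X₁ n)) (h3 : IsZero (groupCohomology X.X₃ n)) :
    IsZero (groupCohomology X.X₂ n) :=
  (mapShortComplex₂_exact hX n).isZero_X₂ (h1.eq_zero_of_src _) (h3.eq_zero_of_tgt _)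

end Fermat.Agent.S55
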