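/-
S55 / Alg (U0): explicit 3-cocycles for `A : Rep k G`, DEFINITIONS (sorry-free).
-/
import Mathlib

set_option autoImplicit false

namespace Fermat.Agent.S55

open CategoryTheory groupCohomology Rep

universe u

variable {k G : Type u} [CommRing k] [Group G]

/-- the explicit differential `Fun(G³, A) → Fun(G⁴, A)`:
`(d f)(g,h,j,l) = g f(h,j,l) - f(gh,j,l) + f(g,hj,l) - f(g,h,jl) + f(g,h,j)` -/
def gaD₃₄ (A : Rep k G) : (G × G × G → A.V) →ₗ[k] (G × G × G × G → A.V) where
  toFun f x := A.ρ x.1 (f (x.2.1, x.2.2.1, x.2.2.2)) - f (x.1 * x.2.1, x.2.2.1, x.2.2.2)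
    + f (x.1, x.2.1 * x.2.2.1, x.2.2.2) - f (x.1, x.2.1, x.2.2.1 * x.2.2.2)
    + f (x.1, x.2.1, x.2.2.1)
  map_add' f f' := by
    funext x
    simp only [Pi.add_apply, map_add]
    abel
  map_smul' r f := by
    funext x
    simp only [Pi.smul_apply, map_smul, RingHom.id_apply, smul_add, smul_sub]

@[simp] lemma gaD₃₄_apply (A : Rep k G) (f : G × G × G → A.V) (g h j l : G) :
    gaD₃₄ A f (g, h, j, l) = A.ρ g (f (h, j, l)) - f (g * h, j, l) + f (g, h * j, l)
      - f (g, h, j * l) + f (g, h, j) := rfl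

/-- explicit 3-cocycles -/
def gaCocycles₃ (A : Rep k G) : Submodule k (G × G × G → A.V) := LinearMap.ker (gaD₃₄ A)

lemma mem_gaCocycles₃_iff (A : Rep k G) (f : G × G × G → A.V) :
    f ∈ gaCocycles₃ A ↔ ∀ g h j l : G, A.ρ g (f (h, j, l)) - f (g * h, j, l) + f (g, h * j, l)
      - f (g, h, j * l) + f (g, h, j) = 0 := by
  rw [gaCocycles₃, LinearMap.mem_ker]
  constructor
  · intro h g h' j l
    exact congrFun h (g, h', j, l)
  · intro h
    funext ⟨g, h', j, l⟩
    exact h g h' j l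

end Fermat.Agent.S55
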