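/-
S55 / Alg, leaf H3-A: explicit 3-cocycles and Mathlib's `H³`.
-/
import Mathlib
import Fermat.Agent.S55.Alg.H3Defs

set_option autoImplicit false

namespace Fermat.Agent.S55

open CategoryTheory CategoryTheory.Limits groupCohomology Rep

universe u

variable {k G : Type u} [CommRing k] [Group G]

/-- `(cochainsIso₃ A).inv f` is `f` read on `Fin 3 → G` -/
theorem gaH3_cochainsIso₃_inv_apply (A : Rep k G) (f : G × G × G → A.V) (x : Fin 3 → G) :
    (cochainsIso₃ A).inv f x = f (x 0, x 1, x 2) := rfl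

/-- the third differential of the inhomogeneous cochains, in explicit terms -/
theorem gaH3_d_apply (A : Rep k G) (f : G × G × G → A.V) (x : Fin 4 → G) :
    inhomogeneousCochains.d A 3 ((cochainsIso₃ A).inv f) x = gaD₃₄ A f (x 0, x 1, x 2, x 3) := by
  rw [inhomogeneousCochains.d_hom_apply, Fin.sum_univ_four]
  rw [gaH3_cochainsIso₃_inv_apply A f (fun i => x i.succ),
    gaH3_cochainsIso₃_inv_apply A f (Fin.contractNth 0 (fun x1 x2 => x1 * x2) x),
    gaH3_cochainsIso₃_inv_apply A f (Fin.contractNth 1 (fun x1 x2 => x1 * x2) x),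
    gaH3_cochainsIso₃_inv_apply A f (Fin.contractNth 2 (fun x1 x2 => x1 * x2) x),
    gaH3_cochainsIso₃_inv_apply A f (Fin.contractNth 3 (fun x1 x2 => x1 * x2) x), gaD₃₄_apply]
  have h00 : Fin.contractNth 0 (fun x1 x2 => x1 * x2) x 0 = x 0 * x 1 := rfl
  have h01 : Fin.contractNth 0 (fun x1 x2 => x1 * x2) x 1 = x 2 := rfl
  have h02 : Fin.contractNth 0 (fun x1 x2 => x1 * x2) x 2 = x 3 := rfl
  have h10 : Fin.contractNth 1 (fun x1 x2 => x1 * x2) x 0 = x 0 := rfl
  have h11 : Fin.contractNth 1 (fun x1 x2 => x1 * x2) x 1 = x 1 * x 2 := rfl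
  have h12 : Fin.contractNth 1 (fun x1 x2 => x1 * x2) x 2 = x 3 := rfl
  have h20 : Fin.contractNth 2 (fun x1 x2 => x1 * x2) x 0 = x 0 := rfl
  have h21 : Fin.contractNth 2 (fun x1 x2 => x1 * x2) x 1 = x 1 := rfl
  have h22 : Fin.contractNth 2 (fun x1 x2 => x1 * x2) x 2 = x 2 * x 3 := rfl
  have h30 : Fin.contractNth 3 (fun x1 x2 => x1 * x2) x 0 = x 0 := rfl
  have h31 : Fin.contractNth 3 (fun x1 x2 => x1 * x2) x 1 = x 1 := rfl
  have h32 : Fin.contractNth 3 (fun x1 x2 => x1 * x2) x 2 = x 2 := rfl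
  rw [h00, h01, h02, h10, h11, h12, h20, h21, h22, h30, h31, h32]
  have e0 : ((-1 : k) ^ (((0 : Fin 4) : ℕ) + 1)) = -1 := by norm_num
  have e1 : ((-1 : k) ^ (((1 : Fin 4) : ℕ) + 1)) = 1 := by norm_num
  have e2 : ((-1 : k) ^ (((2 : Fin 4) : ℕ) + 1)) = -1 := by
    have : (((2 : Fin 4) : ℕ) + 1) = 3 := rfl
    rw [this]; norm_num
  have e3 : ((-1 : k) ^ (((3 : Fin 4) : ℕ) + 1)) = 1 := by
    have : (((3 : Fin 4) : ℕ) + 1) = 4 := rfl
    rw [this]; norm_num
  rw [e0, e1, e2, e3]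
  simp only [neg_smul, one_smul]
  have hs1 : Fin.succ (0 : Fin 3) = 1 := rfl
  have hs2 : Fin.succ (1 : Fin 3) = 2 := rfl
  have hs3 : Fin.succ (2 : Fin 3) = 3 := rfl
  rw [hs1, hs2, hs3]
  abel

/-- a 3-cochain (in Mathlib's sense) is closed iff the explicit differential of the corresponding
function on `G × G × G` vanishes -/
theorem gaH3_d_eq_zero_iff (A : Rep k G) (f : G × G × G → A.V) :
    inhomogeneousCochains.d A 3 ((cochainsIso₃ A).inv f) = 0 ↔ f ∈ gaCocycles₃ A := by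
  rw [gaCocycles₃, LinearMap.mem_ker]
  constructor
  · intro h
    funext ⟨g, h', j, l⟩
    have := congrFun h ![g, h', j, l]
    rw [gaH3_d_apply] at this
    exact this
  · intro h
    funext x
    rw [gaH3_d_apply, h]
    rfl

/-- the explicit cocycles, as a morphism to Mathlib's 3-cocycles -/
noncomputable def gaH3Z (A : Rep k G) : ModuleCat.of k (gaCocycles₃ A) ⟶ cocycles A 3 :=
  (inhomogeneousCochains A).liftCycles
    (ModuleCat.ofHom (gaCocycles₃ A).subtype ≫ (cochainsIso₃ A).inv) 4 (by simp) (by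
      ext x : 2
      have h := (gaH3_d_eq_zero_iff A x.1).mpr x.2
      rw [← inhomogeneousCochains.d_def] at h
      exact h)

theorem gaH3Z_i (A : Rep k G) (x : gaCocycles₃ A) :
    iCocycles A 3 (gaH3Z A x) = (cochainsIso₃ A).inv x.1 := by
  have h := (inhomogeneousCochains A).liftCycles_i
    (ModuleCat.ofHom (gaCocycles₃ A).subtype ≫ (cochainsIso₃ A).inv) 4 (by simp) (by
      ext x : 2
      have h := (gaH3_d_eq_zero_iff A x.1).mpr x.2
      rw [← inhomogeneousCochains.d_def] at h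
      exact h)
  exact congrArg (fun φ => φ.hom x) h

theorem gaH3_iCocycles_injective (A : Rep k G) (n : ℕ) : Function.Injective (iCocycles A n) :=
  (ModuleCat.mono_iff_injective (iCocycles A n)).1 inferInstance

theorem gaH3_cochainsIso₃_inv_injective (A : Rep k G) :
    Function.Injective ((cochainsIso₃ A).inv : (G × G × G → A.V) → _) := by
  intro f f' h
  have := congrArg (cochainsIso₃ A).hom h
  simpa using this

/-- every Mathlib 3-cocycle comes from an explicit one -/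
theorem gaH3Z_surjective (A : Rep k G) : Function.Surjective (gaH3Z A) := by
  intro z
  have hz : inhomogeneousCochains.d A 3 (iCocycles A 3 z) = 0 := by
    have h := (inhomogeneousCochains A).iCycles_d 3 4
    rw [inhomogeneousCochains.d_def] at h
    exact congrArg (fun φ => φ.hom z) h
  have hinv : (cochainsIso₃ A).inv ((cochainsIso₃ A).hom (iCocycles A 3 z)) = iCocycles A 3 z := by
    simp
  have hmem : (cochainsIso₃ A).hom (iCocycles A 3 z) ∈ gaCocycles₃ A := by
    rw [← gaH3_d_eq_zero_iff, hinv]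
    exact hz
  refine ⟨⟨_, hmem⟩, ?_⟩
  apply gaH3_iCocycles_injective
  rw [gaH3Z_i]
  exact hinv

/-- the class of an explicit 3-cocycle -/
noncomputable def gaH3π (A : Rep k G) : gaCocycles₃ A →ₗ[k] groupCohomology A 3 :=
  (gaH3Z A ≫ π A 3).hom

theorem gaH3π_apply (A : Rep k G) (x : gaCocycles₃ A) : gaH3π A x = π A 3 (gaH3Z A x) := rfl

theorem gaH3π_surjective (A : Rep k G) : Function.Surjective (gaH3π A) := by
  intro y
  induction y using groupCohomology_induction_on with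
  | h z =>
    obtain ⟨x, rfl⟩ := gaH3Z_surjective A z
    exact ⟨x, rfl⟩

/-- the class of a Mathlib 3-cocycle vanishes iff it is the image of a 2-cochain -/
theorem gaH3_π_eq_zero_iff (A : Rep k G) (z : cocycles A 3) :
    π A 3 z = 0 ↔ ∃ c : (inhomogeneousCochains A).X 2, toCocycles A 2 3 c = z := by
  have hex : (ShortComplex.mk (toCocycles A 2 3) (π A 3)
      ((inhomogeneousCochains A).toCycles_comp_homologyπ 2 3)).Exact :=
    ShortComplex.exact_of_g_is_cokernel _
      ((inhomogeneousCochains A).homologyIsCokernel 2 3 (by simp))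
  rw [ShortComplex.moduleCat_exact_iff] at hex
  constructor
  · intro h
    exact hex z h
  · rintro ⟨c, rfl⟩
    exact congrArg (fun φ => φ.hom c) ((inhomogeneousCochains A).toCycles_comp_homologyπ 2 3)

theorem gaH3π_eq_zero_iff (A : Rep k G) (x : gaCocycles₃ A) :
    gaH3π A x = 0 ↔ ∃ c : G × G → A.V, (d₂₃ A).hom c = x.1 := by
  rw [gaH3π_apply, gaH3_π_eq_zero_iff]
  have key : ∀ c : G × G → A.V, iCocycles A 3 (toCocycles A 2 3 ((cochainsIso₂ A).inv c)) =
      (cochainsIso₃ A).inv ((d₂₃ A).hom c) := by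
    intro c
    have h1 := congrArg (fun φ => φ.hom ((cochainsIso₂ A).inv c))
      ((inhomogeneousCochains A).toCycles_i 2 3)
    have h2 := congrArg (fun φ => φ.hom c) (eq_d₂₃_comp_inv A)
    exact h1.trans h2
  constructor
  · rintro ⟨c, hc⟩
    refine ⟨(cochainsIso₂ A).hom c, ?_⟩
    apply gaH3_cochainsIso₃_inv_injective
    have hc' : (cochainsIso₂ A).inv ((cochainsIso₂ A).hom c) = c := by simp
    rw [← key, hc', hc, gaH3Z_i]
  · rintro ⟨c, hc⟩
    refine ⟨(cochainsIso₂ A).inv c, ?_⟩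
    apply gaH3_iCocycles_injective
    rw [key, hc, gaH3Z_i]

/-- `d₂₃ c` is a 3-cocycle -/
theorem d₂₃_mem_gaCocycles₃ (A : Rep k G) (c : G × G → A.V) : (d₂₃ A).hom c ∈ gaCocycles₃ A := by
  rw [mem_gaCocycles₃_iff]
  intro g h j l
  simp only [d₂₃_hom_apply, map_sub, map_add, mul_assoc]
  rw [← Module.End.mul_apply, ← map_mul]
  abel

/-- functoriality: `map f φ 3` is composition with `f` and `φ` on explicit cocycles -/
theorem gaCocycles₃_comp_mem {H : Type u} [Group H] {A : Rep k H} {B : Rep k G} (f : G →* H)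
    (φ : res f A ⟶ B) (x : gaCocycles₃ A) :
    (fun p : G × G × G => φ.hom (x.1 (f p.1, f p.2.1, f p.2.2))) ∈ gaCocycles₃ B := by
  rw [mem_gaCocycles₃_iff]
  intro g h j l
  have hx := (mem_gaCocycles₃_iff A x.1).mp x.2 (f g) (f h) (f j) (f l)
  have hφ := congrArg φ.hom hx
  rw [map_zero, map_add, map_sub, map_add, map_sub] at hφ
  have hcomm : φ.hom (A.ρ (f g) (x.1 (f h, f j, f l))) = B.ρ g (φ.hom (x.1 (f h, f j, f l))) :=
    hom_comm_apply φ g (x.1 (f h, f j, f l))
  rw [hcomm, ← map_mul, ← map_mul, ← map_mul] at hφ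
  exact hφ

theorem gaH3_cochainsMap_f_apply {H : Type u} [Group H] {A : Rep k H} {B : Rep k G} (f : G →* H)
    (φ : res f A ⟶ B) (n : ℕ) (c : (Fin n → H) → A.V) (y : Fin n → G) :
    (cochainsMap f φ).f n c y = φ.hom (c (f ∘ y)) := rfl

theorem gaH3_cocyclesMap_gaH3Z {H : Type u} [Group H] {A : Rep k H} {B : Rep k G} (f : G →* H)
    (φ : res f A ⟶ B) (x : gaCocycles₃ A) :
    cocyclesMap f φ 3 (gaH3Z A x) = gaH3Z B ⟨_, gaCocycles₃_comp_mem f φ x⟩ := by
  apply gaH3_iCocycles_injective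
  have h1 := congrArg (fun ψ => ψ.hom (gaH3Z A x))
    (HomologicalComplex.cyclesMap_i (cochainsMap f φ) 3)
  refine h1.trans ?_
  rw [gaH3Z_i]
  show (cochainsMap f φ).f 3 (iCocycles A 3 (gaH3Z A x)) = _
  rw [gaH3Z_i]
  funext y
  rw [gaH3_cochainsMap_f_apply, gaH3_cochainsIso₃_inv_apply, gaH3_cochainsIso₃_inv_apply]
  rfl

theorem map_gaH3π {H : Type u} [Group H] {A : Rep k H} {B : Rep k G} (f : G →* H)
    (φ : res f A ⟶ B) (x : gaCocycles₃ A) :
    map f φ 3 (gaH3π A x) = gaH3π B ⟨_, gaCocycles₃_comp_mem f φ x⟩ := by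
  rw [gaH3π_apply, gaH3π_apply, ← gaH3_cocyclesMap_gaH3Z]
  exact congrArg (fun ψ => ψ.hom (gaH3Z A x)) (π_map f φ 3)

end Fermat.Agent.S55
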