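/-
S55 / Alg, leaf H3-D: the connecting homomorphism `H²(G, X₃) → H³(G, X₁)` of a short exact
sequence of representations, on explicit cocycles (continuing Mathlib's `δ₀_apply`, `δ₁_apply`).
-/
import Mathlib
import Fermat.Agent.S55.Alg.H3Bridge

set_option autoImplicit false

namespace Fermat.Agent.S55

open CategoryTheory CategoryTheory.Limits groupCohomology Rep

universe u

variable {k G : Type u} [CommRing k] [Group G]

/-- `gaH3Z A x` is Mathlib's `cocyclesMk` of `x` read on `Fin 3 → G` -/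
theorem gaH3Z_eq_cocyclesMk (A : Rep k G) (x : gaCocycles₃ A)
    (h : inhomogeneousCochains.d A 3 ((cochainsIso₃ A).inv x.1) = 0) :
    gaH3Z A x = cocyclesMk ((cochainsIso₃ A).inv x.1) h := by
  apply gaH3_iCocycles_injective
  rw [gaH3Z_i, iCocycles_mk]

/-- the class of an explicit 3-cocycle, through Mathlib's `cocyclesMk` -/
theorem gaH3π_eq_π_cocyclesMk (A : Rep k G) (x : gaCocycles₃ A)
    (h : inhomogeneousCochains.d A 3 ((cochainsIso₃ A).inv x.1) = 0) :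
    gaH3π A x = π A 3 (cocyclesMk ((cochainsIso₃ A).inv x.1) h) := by
  rw [gaH3π_apply, gaH3Z_eq_cocyclesMk A x h]

/-- `(cochainsIso₂ A).inv f` is `f` read on `Fin 2 → G` -/
theorem gaH3_cochainsIso₂_inv_apply (A : Rep k G) (f : G × G → A.V) (x : Fin 2 → G) :
    (cochainsIso₂ A).inv f x = f (x 0, x 1) := rfl

/-- Mathlib's differential `C² → C³` in explicit terms -/
theorem gaH3_d₂₃_apply (A : Rep k G) (c : G × G → A.V) :
    (inhomogeneousCochains A).d 2 3 ((cochainsIso₂ A).inv c) =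
      (cochainsIso₃ A).inv ((d₂₃ A).hom c) :=
  congrArg (fun φ => φ.hom c) (eq_d₂₃_comp_inv A)

section Delta

variable {X : ShortComplex (Rep k G)} (hX : X.ShortExact)

include hX in
/-- a 3-cochain of `X₁` whose image in `X₂` is a coboundary `d₂₃ y` is a 3-cocycle -/
theorem gaH3_mem_of_comp_eq_d₂₃ {y : G × G → X.X₂} {x : G × G × G → X.X₁}
    (hx : X.f.hom ∘ x = (d₂₃ X.X₂).hom y) : x ∈ gaCocycles₃ X.X₁ := by
  rw [mem_gaCocycles₃_iff]
  intro g h j l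
  have hinj : Function.Injective X.f.hom := (Rep.mono_iff_injective X.f).1 hX.2
  apply hinj
  have hy := (mem_gaCocycles₃_iff X.X₂ _).mp (d₂₃_mem_gaCocycles₃ X.X₂ y) g h j l
  rw [← hx] at hy
  simp only [Function.comp_apply] at hy
  rw [map_zero, map_add, map_sub, map_add, map_sub]
  have hcomm : X.f.hom (X.X₁.ρ g (x (h, j, l))) = X.X₂.ρ g (X.f.hom (x (h, j, l))) :=
    hom_comm_apply X.f g (x (h, j, l))
  rw [hcomm]
  exact hy

/-- **the connecting homomorphism in degrees `2 → 3` on explicit cochains**: for a short exact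
sequence `0 ⟶ X₁ ⟶ X₂ ⟶ X₃ ⟶ 0`, a 2-cocycle `z` of `X₃`, a lift `y` of `z` to a 2-cochain of
`X₂` and a 3-cochain `x` of `X₁` with `f ∘ x = d₂₃ y`: `δ [z] = [x]`. -/
theorem gaH3_δ_apply (z : cocycles₂ X.X₃) (y : G × G → X.X₂) (hy : X.g.hom ∘ y = z)
    (x : G × G × G → X.X₁) (hx : X.f.hom ∘ x = (d₂₃ X.X₂).hom y) :
    δ hX 2 3 rfl (H2π X.X₃ z) = gaH3π X.X₁ ⟨x, gaH3_mem_of_comp_eq_d₂₃ hX hx⟩ := by
  have hz1 : (d₂₃ X.X₃).hom z.1 = 0 := cocycles₂.d₂₃_apply z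
  have hz0 : (inhomogeneousCochains X.X₃).d 2 3 ((cochainsIso₂ X.X₃).inv z.1) = 0 := by
    rw [gaH3_d₂₃_apply, hz1, map_zero]
  have hy' : (cochainsMap (MonoidHom.id G) X.g).f 2 ((cochainsIso₂ X.X₂).inv y) =
      (cochainsIso₂ X.X₃).inv z.1 := by
    funext t
    rw [gaH3_cochainsMap_f_apply, gaH3_cochainsIso₂_inv_apply, gaH3_cochainsIso₂_inv_apply]
    exact congrFun hy (t 0, t 1)
  have hx' : X.f.hom ∘ ((cochainsIso₃ X.X₁).inv x) =
      (inhomogeneousCochains X.X₂).d 2 3 ((cochainsIso₂ X.X₂).inv y) := by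
    rw [gaH3_d₂₃_apply, ← hx]
    rfl
  have key := δ_apply hX (i := 2) (j := 3) rfl ((cochainsIso₂ X.X₃).inv z.1) hz0
    ((cochainsIso₂ X.X₂).inv y) hy' ((cochainsIso₃ X.X₁).inv x) hx'
  have hz2 : inhomogeneousCochains.d X.X₃ 2 ((cochainsIso₂ X.X₃).inv z.1) = 0 := by
    rw [← inhomogeneousCochains.d_def]; exact hz0
  have hL : H2π X.X₃ z = π X.X₃ 2 (cocyclesMk ((cochainsIso₂ X.X₃).inv z.1) hz2) := by
    rw [cocyclesMk₂_eq X.X₃]
    rfl
  rw [hL, key]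
  have hx3 : inhomogeneousCochains.d X.X₁ 3 ((cochainsIso₃ X.X₁).inv x) = 0 :=
    (gaH3_d_eq_zero_iff X.X₁ x).mpr (gaH3_mem_of_comp_eq_d₂₃ hX hx)
  exact (gaH3π_eq_π_cocyclesMk X.X₁ ⟨x, gaH3_mem_of_comp_eq_d₂₃ hX hx⟩ hx3).symm

end Delta

end Fermat.Agent.S55
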