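import Mathlib
import Fermat.Agent.S55.Alg.CohomDefs3
import Fermat.Agent.S55.Alg.H3Bridge

set_option autoImplicit false

/-!
# S55 / Alg, U0 (row 233, GA-H3-M): multiplicative 3-cochains and the bridge to Mathlib's `H³`

`G : Type`, `X : Type` a commutative group with `MulDistribMulAction G X`; Mathlib's module is
`Rep.ofMulDistribMulAction G X : Rep ℤ G` (carrier `Additive X`).  Everything is deduced from the
additive bridge `gaH3π` of `Alg/H3Bridge.lean`.
-/

namespace Fermat.Agent.S55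

open CategoryTheory CategoryTheory.Limits groupCohomology Rep

section U0

variable {G : Type} [Group G] {X : Type} [CommGroup X] [MulDistribMulAction G X]

/-- the additive 3-cochain attached to a multiplicative one -/
def h3mAdd (f : G × G × G → X) : G × G × G → (Rep.ofMulDistribMulAction G X).V :=
  fun p => Additive.ofMul (f p)

/-- the multiplicative 3-cochain attached to an additive one -/
def h3mMul (F : G × G × G → (Rep.ofMulDistribMulAction G X).V) : G × G × G → X :=
  fun p => Additive.toMul (F p)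

omit [Group G] [MulDistribMulAction G X] in
theorem h3m_comm_aux (x y z w v : X) : x / y * z / w * v = 1 ↔ x * z * v = y * w := by
  have h : x / y * z / w * v = (x * z * v) / (y * w) := by
    simp only [div_eq_mul_inv, mul_inv_rev]
    ac_rfl
  rw [h, div_eq_one]

theorem h3mAdd_mem_iff (f : G × G × G → X) :
    h3mAdd f ∈ gaCocycles₃ (Rep.ofMulDistribMulAction G X) ↔ IsMulCocycle₃ f := by
  rw [mem_gaCocycles₃_iff]
  refine forall_congr' fun g => forall_congr' fun h => forall_congr' fun j =>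
    forall_congr' fun l => ?_
  exact h3m_comm_aux (g • f (h, j, l)) (f (g * h, j, l)) (f (g, h * j, l)) (f (g, h, j * l))
    (f (g, h, j))

theorem h3mMul_isMulCocycle₃ (F : gaCocycles₃ (Rep.ofMulDistribMulAction G X)) :
    IsMulCocycle₃ (h3mMul (F : G × G × G → (Rep.ofMulDistribMulAction G X).V)) :=
  (h3mAdd_mem_iff _).1 F.2

theorem h3m_isMulCoboundary₃_iff (f : G × G × G → X) :
    IsMulCoboundary₃ f ↔
      ∃ c : G × G → (Rep.ofMulDistribMulAction G X).V,
        (d₂₃ (Rep.ofMulDistribMulAction G X)).hom c = h3mAdd f := by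
  constructor
  · rintro ⟨c, hc⟩
    refine ⟨fun p => Additive.ofMul (c p), ?_⟩
    funext ⟨g, h, j⟩
    exact congrArg Additive.ofMul (hc g h j)
  · rintro ⟨c, hc⟩
    refine ⟨fun p => Additive.toMul (c p), fun g h j => ?_⟩
    exact congrArg Additive.toMul (congrFun hc (g, h, j))

/-- the class of a multiplicative `3`-cocycle in Mathlib's `H³(G, X)` -/
noncomputable def mulH3π (f : G × G × G → X) (hf : IsMulCocycle₃ f) :
    groupCohomology (Rep.ofMulDistribMulAction G X) 3 :=
  gaH3π (Rep.ofMulDistribMulAction G X) ⟨h3mAdd f, (h3mAdd_mem_iff f).2 hf⟩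

theorem mulH3π_surjective (x : groupCohomology (Rep.ofMulDistribMulAction G X) 3) :
    ∃ (f : G × G × G → X) (hf : IsMulCocycle₃ f), mulH3π f hf = x := by
  obtain ⟨F, rfl⟩ := gaH3π_surjective (Rep.ofMulDistribMulAction G X) x
  exact ⟨h3mMul (F : G × G × G → (Rep.ofMulDistribMulAction G X).V), h3mMul_isMulCocycle₃ F, rfl⟩

theorem mulH3π_eq_zero_iff (f : G × G × G → X) (hf : IsMulCocycle₃ f) :
    mulH3π f hf = 0 ↔ IsMulCoboundary₃ f := by
  rw [mulH3π, gaH3π_eq_zero_iff, h3m_isMulCoboundary₃_iff]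

theorem IsMulCocycle₃.mul {f f' : G × G × G → X} (hf : IsMulCocycle₃ f) (hf' : IsMulCocycle₃ f') :
    IsMulCocycle₃ (f * f') :=
  (h3mAdd_mem_iff (f * f')).1
    ((gaCocycles₃ (Rep.ofMulDistribMulAction G X)).add_mem ((h3mAdd_mem_iff f).2 hf)
      ((h3mAdd_mem_iff f').2 hf'))

theorem IsMulCocycle₃.pow {f : G × G × G → X} (hf : IsMulCocycle₃ f) (n : ℕ) :
    IsMulCocycle₃ (f ^ n) :=
  (h3mAdd_mem_iff (f ^ n)).1
    ((gaCocycles₃ (Rep.ofMulDistribMulAction G X)).smul_of_tower_mem n ((h3mAdd_mem_iff f).2 hf))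

theorem IsMulCoboundary₃.isMulCocycle₃ {f : G × G × G → X} (hf : IsMulCoboundary₃ f) :
    IsMulCocycle₃ f := by
  obtain ⟨c, hc⟩ := (h3m_isMulCoboundary₃_iff f).1 hf
  rw [← h3mAdd_mem_iff, ← hc]
  exact d₂₃_mem_gaCocycles₃ _ c

theorem mulH3π_mul (f f' : G × G × G → X) (hf : IsMulCocycle₃ f) (hf' : IsMulCocycle₃ f') :
    mulH3π (f * f') (hf.mul hf') = mulH3π f hf + mulH3π f' hf' := by
  rw [mulH3π, mulH3π, mulH3π, ← map_add]
  rfl

theorem mulH3π_pow (f : G × G × G → X) (hf : IsMulCocycle₃ f) (n : ℕ) :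
    mulH3π (f ^ n) (hf.pow n) = n • mulH3π f hf := by
  rw [mulH3π, mulH3π, ← map_nsmul]
  rfl

/-- `H³ = 0` iff every multiplicative 3-cocycle is a 3-coboundary -/
theorem isZero_H3_iff_forall_isMulCoboundary₃ :
    IsZero (groupCohomology (Rep.ofMulDistribMulAction G X) 3) ↔
      ∀ f : G × G × G → X, IsMulCocycle₃ f → IsMulCoboundary₃ f := by
  rw [ModuleCat.isZero_iff_subsingleton]
  constructor
  · intro hs f hf
    exact (mulH3π_eq_zero_iff f hf).1 (Subsingleton.elim _ _)
  · intro h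
    refine ⟨fun x y => ?_⟩
    obtain ⟨f, hf, rfl⟩ := mulH3π_surjective x
    obtain ⟨f', hf', rfl⟩ := mulH3π_surjective y
    rw [(mulH3π_eq_zero_iff f hf).2 (h f hf), (mulH3π_eq_zero_iff f' hf').2 (h f' hf')]

/-- pull-back of cocycles along `ρ : H →* G` and an equivariant `j : X →* Y` -/
theorem pullCochain₃_isMulCocycle₃ {H : Type} [Group H] {Y : Type} [CommGroup Y]
    [MulDistribMulAction H Y] (ρ : H →* G) (j : X →* Y) (hj : ∀ (h : H) (x : X), j (ρ h • x) = h • j x)
    (f : G × G × G → X) (hf : IsMulCocycle₃ f) : IsMulCocycle₃ (pullCochain₃ ρ j f) := by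
  intro g h i l
  have h0 := congrArg j (hf (ρ g) (ρ h) (ρ i) (ρ l))
  simp only [map_mul, hj] at h0
  simpa only [pullCochain₃, map_mul] using h0

theorem pullCochain₃_isMulCoboundary₃ {H : Type} [Group H] {Y : Type} [CommGroup Y]
    [MulDistribMulAction H Y] (ρ : H →* G) (j : X →* Y) (hj : ∀ (h : H) (x : X), j (ρ h • x) = h • j x)
    (f : G × G × G → X) (hf : IsMulCoboundary₃ f) : IsMulCoboundary₃ (pullCochain₃ ρ j f) := by
  obtain ⟨c, hc⟩ := hf
  refine ⟨fun p => j (c (ρ p.1, ρ p.2)), fun g h i => ?_⟩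
  have h0 := congrArg j (hc (ρ g) (ρ h) (ρ i))
  simp only [map_mul, map_div, hj] at h0
  simpa only [pullCochain₃, map_mul] using h0

/-- the morphism of representations attached to an equivariant coefficient hom -/
noncomputable def mulCoeffHom {H : Type} [Group H] {Y : Type} [CommGroup Y]
    [MulDistribMulAction H Y] (ρ : H →* G) (j : X →* Y)
    (hj : ∀ (h : H) (x : X), j (ρ h • x) = h • j x) :
    res ρ (Rep.ofMulDistribMulAction G X) ⟶ Rep.ofMulDistribMulAction H Y :=
  Rep.ofHom (ρ := (Representation.ofMulDistribMulAction G X).comp ρ)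
    (σ := Representation.ofMulDistribMulAction H Y)
    (LinearMap.intertwiningMap_of_isIntertwiningMap _ _ (MonoidHom.toAdditive j).toIntLinearMap
      (fun h x => congrArg Additive.ofMul (hj h (Additive.toMul x))))

theorem mulCoeffHom_hom_apply {H : Type} [Group H] {Y : Type} [CommGroup Y]
    [MulDistribMulAction H Y] (ρ : H →* G) (j : X →* Y)
    (hj : ∀ (h : H) (x : X), j (ρ h • x) = h • j x) (x : X) :
    (mulCoeffHom ρ j hj).hom (Additive.ofMul x) = Additive.ofMul (j x) := rfl

/-- `groupCohomology.map` is `pullCochain₃` on classes -/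
theorem map_mulH3π {H : Type} [Group H] {Y : Type} [CommGroup Y]
    [MulDistribMulAction H Y] (ρ : H →* G) (j : X →* Y) (hj : ∀ (h : H) (x : X), j (ρ h • x) = h • j x)
    (f : G × G × G → X) (hf : IsMulCocycle₃ f) :
    map ρ (mulCoeffHom ρ j hj) 3 (mulH3π f hf) =
      mulH3π (pullCochain₃ ρ j f) (pullCochain₃_isMulCocycle₃ ρ j hj f hf) := by
  rw [mulH3π, map_gaH3π]
  rfl

end U0

end Fermat.Agent.S55
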