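import Mathlib
import Fermat.Agent.S55.Alg.DimShiftDefs
import Fermat.Agent.S55.Alg.DimShiftAcyclic
import Fermat.Agent.S55.Alg.DeltaNat
import Fermat.Agent.S55.Alg.DimShiftInv

set_option autoImplicit false

/-!
# S55 / Alg, GA1: inflation-restriction in all degrees, by dimension shifting

If `Hⁱ(S, A) = 0` for `0 < i < n + 1` then `0 ⟶ Hⁿ⁺¹(G ⧸ S, A^S) ⟶ Hⁿ⁺¹(G, A) ⟶ Hⁿ⁺¹(S, A)` is exact.
-/

namespace Fermat.Agent.S55

open CategoryTheory CategoryTheory.Limits groupCohomology Rep

universe u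

variable {k G : Type u} [CommRing k] [Group G]

/-- the inflation-restriction short complex `Hⁿ⁺¹(G ⧸ S, A^S) ⟶ Hⁿ⁺¹(G, A) ⟶ Hⁿ⁺¹(S, A)` -/
noncomputable def gaInfRes (A : Rep k G) (S : Subgroup G) [S.Normal] (n : ℕ) :
    ShortComplex (ModuleCat k) where
  X₁ := groupCohomology (A.quotientToInvariants S) (n + 1)
  X₂ := groupCohomology A (n + 1)
  X₃ := groupCohomology (res S.subtype A) (n + 1)
  f := map (QuotientGroup.mk' S) (ofHom <| A.ρ.quotientToInvariants_lift S) (n + 1)
  g := map S.subtype (𝟙 _) (n + 1)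
  zero := by
    rw [← map_comp, Category.comp_id,
      groupCohomology.congr (QuotientGroup.mk'_comp_subtype S) (fun f φ => map f φ (n + 1)),
      ga_map_one]

section

variable (A : Rep k G) (S : Subgroup G) [S.Normal]

/-- the morphism of short complexes of `G`-representations from the inflated invariants of the
dimension shifting sequence to the sequence itself -/
noncomputable def irInvHom :
    ((dsSES A).map (quotientToInvariantsFunctor k S)).map (resFunctor (QuotientGroup.mk' S)) ⟶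
      dsSES A :=
  ShortComplex.homMk (ofHom <| A.ρ.quotientToInvariants_lift S)
    (ofHom <| (dsFun A).ρ.quotientToInvariants_lift S)
    (ofHom <| (dsUp A).ρ.quotientToInvariants_lift S) (by ext x; rfl) (by ext x; rfl)

omit [S.Normal] in
lemma ir_resSES_shortExact : ((dsSES A).map (resFunctor S.subtype)).ShortExact :=
  (shortExact_res S.subtype).2 (dsSES_shortExact A)

omit [S.Normal] in
/-- `Hⁱ(S, dsUp A) ≅ Hⁱ⁺¹(S, A)` for `i ≥ 1` -/
lemma ir_isIso_δ_res (i : ℕ) :
    IsIso (δ (ir_resSES_shortExact A S) (i + 1) (i + 1 + 1) rfl) :=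
  isIso_δ_of_isZero _ _ (ds_isZero_res_fun S.subtype S.subtype_injective A i)
    (ds_isZero_res_fun S.subtype S.subtype_injective A (i + 1))

lemma ir_isIso_δ (i : ℕ) :
    IsIso (δ (dsSES_shortExact A) (i + 1) (i + 1 + 1) rfl) :=
  isIso_δ_of_isZero _ _ (ds_isZero_fun A i) (ds_isZero_fun A (i + 1))

lemma ir_isIso_δ_inv (h1 : IsZero (groupCohomology (res S.subtype A) 1)) (i : ℕ) :
    IsIso (δ (ds_inv_shortExact A S h1) (i + 1) (i + 1 + 1) rfl) :=
  isIso_δ_of_isZero _ _ (ds_isZero_inv_fun A S i) (ds_isZero_inv_fun A S (i + 1))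

omit [S.Normal] in
lemma ir_isZero_res_up (i : ℕ) (h : IsZero (groupCohomology (res S.subtype A) (i + 1 + 1))) :
    IsZero (groupCohomology (res S.subtype (dsUp A)) (i + 1)) := by
  exact IsZero.of_iso h (@asIso _ _ _ _ (δ (ir_resSES_shortExact A S) (i + 1) (i + 1 + 1) rfl)
    (ir_isIso_δ_res A S i))

/-- the isomorphism between the inflation-restriction complexes of `dsUp A` in degree `n + 1` and
of `A` in degree `n + 2` -/
noncomputable def irShiftIso (h1 : IsZero (groupCohomology (res S.subtype A) 1)) (n : ℕ) :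
    gaInfRes (dsUp A) S n ≅ gaInfRes A S (n + 1) :=
  ShortComplex.isoMk
    (@asIso _ _ _ _ (δ (ds_inv_shortExact A S h1) (n + 1) (n + 1 + 1) rfl)
      (ir_isIso_δ_inv A S h1 n))
    (@asIso _ _ _ _ (δ (dsSES_shortExact A) (n + 1) (n + 1 + 1) rfl) (ir_isIso_δ A n))
    (@asIso _ _ _ _ (δ (ir_resSES_shortExact A S) (n + 1) (n + 1 + 1) rfl)
      (ir_isIso_δ_res A S n))
    (ga_δ_naturality (QuotientGroup.mk' S) (ds_inv_shortExact A S h1) (dsSES_shortExact A)
      (irInvHom A S) (n + 1) (n + 1 + 1) rfl)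
    (by
      have := ga_δ_naturality S.subtype (dsSES_shortExact A) (ir_resSES_shortExact A S)
        (𝟙 _) (n + 1) (n + 1 + 1) rfl
      exact this)

end

theorem gaInfRes_exact_and_mono (S : Subgroup G) [S.Normal] (n : ℕ) : ∀ (A : Rep k G)
    (h : ∀ i : ℕ, 0 < i → i < n + 1 → IsZero (groupCohomology (res S.subtype A) i)),
    (gaInfRes A S n).Exact ∧ Mono (gaInfRes A S n).f := by
  induction n with
  | zero =>
    intro A _
    exact ⟨H1InfRes_exact A S, inferInstanceAs (Mono (H1InfRes A S).f)⟩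
  | succ n ih =>
    intro A h
    have h1 : IsZero (groupCohomology (res S.subtype A) 1) := h 1 (by omega) (by omega)
    have h' : ∀ i : ℕ, 0 < i → i < n + 1 → IsZero (groupCohomology (res S.subtype (dsUp A)) i) := by
      intro i hi hin
      obtain ⟨j, rfl⟩ : ∃ j, i = j + 1 := ⟨i - 1, by omega⟩
      exact ir_isZero_res_up A S j (h _ (by omega) (by omega))
    obtain ⟨hex, hmono⟩ := ih (dsUp A) h'
    let e := irShiftIso A S h1 n
    refine ⟨(ShortComplex.exact_iff_of_iso e).1 hex, ?_⟩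
    have : (gaInfRes A S (n + 1)).f = e.inv.τ₁ ≫ (gaInfRes (dsUp A) S n).f ≫ e.hom.τ₂ := by
      rw [← e.hom.comm₁₂, ← Category.assoc, ← ShortComplex.comp_τ₁, e.inv_hom_id]
      simp
    rw [this]
    infer_instance

theorem gaInfRes_exact (A : Rep k G) (S : Subgroup G) [S.Normal] (n : ℕ)
    (h : ∀ i : ℕ, 0 < i → i < n + 1 → IsZero (groupCohomology (res S.subtype A) i)) :
    (gaInfRes A S n).Exact := (gaInfRes_exact_and_mono S n A h).1

theorem gaInfRes_mono (A : Rep k G) (S : Subgroup G) [S.Normal] (n : ℕ)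
    (h : ∀ i : ℕ, 0 < i → i < n + 1 → IsZero (groupCohomology (res S.subtype A) i)) :
    Mono (gaInfRes A S n).f := (gaInfRes_exact_and_mono S n A h).2

end Fermat.Agent.S55
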