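import Mathlib
import Fermat.Agent.S55.Alg.InfResN

set_option autoImplicit false

/-!
# S55 / Alg, leaf RC: `res_P x = 0 ⇒ [G : P] • x = 0` in all positive degrees
-/

namespace Fermat.Agent.S55

open CategoryTheory CategoryTheory.Limits groupCohomology Rep

universe u

variable {k G : Type u} [CommRing k] [Group G]

/-- cocycle form of the degree one statement -/
lemma rc_cocycle₁ (A : Rep k G) (P : Subgroup G) [P.FiniteIndex] (f : G → A.V)
    (hf : ∀ g h : G, f (g * h) = A.ρ g (f h) + f g)
    (a : A.V) (ha : ∀ p : P, A.ρ p a - a = f p) :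
    ∃ b : A.V, ∀ g : G, A.ρ g b - b = P.index • f g := by
  classical
  have : Fintype (G ⧸ P) := Subgroup.fintypeQuotientOfFiniteIndex
  -- normalise
  let f' : G → A.V := fun g => f g - (A.ρ g a - a)
  have hf' : ∀ g h : G, f' (g * h) = A.ρ g (f' h) + f' g := by
    intro g h
    simp only [f', hf g h, map_mul, Module.End.mul_apply, map_sub]
    abel
  have hP : ∀ p : G, p ∈ P → f' p = 0 := by
    intro p hp
    have := ha ⟨p, hp⟩
    simp only [f']
    rw [← this]
    exact sub_self _
  have hcoset : ∀ g p : G, p ∈ P → f' (g * p) = f' g := by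
    intro g p hp
    rw [hf', hP p hp, map_zero, zero_add]
  let F : G ⧸ P → A.V := fun c => Quotient.liftOn' c f' (by
    intro x y hxy
    rw [QuotientGroup.leftRel_apply] at hxy
    have := hcoset x _ hxy
    rw [mul_inv_cancel_left] at this
    exact this.symm)
  have hF : ∀ g : G, F (g : G ⧸ P) = f' g := fun g => rfl
  have hact : ∀ (g : G) (c : G ⧸ P), A.ρ g (F c) = F (g • c) - f' g := by
    intro g c
    induction c using QuotientGroup.induction_on with | H x =>
    have : g • (x : G ⧸ P) = ((g * x : G) : G ⧸ P) := rfl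
    rw [this, hF, hF, hf' g x]
    abel
  let b' : A.V := ∑ c : G ⧸ P, F c
  have hb' : ∀ g : G, A.ρ g b' = b' - P.index • f' g := by
    intro g
    simp only [b', map_sum]
    rw [Finset.sum_congr rfl (fun c _ => hact g c), Finset.sum_sub_distrib]
    congr 1
    · exact Fintype.sum_equiv (MulAction.toPerm g) _ _ (fun c => rfl)
    · rw [Finset.sum_const, Finset.card_univ, Subgroup.index_eq_card, Nat.card_eq_fintype_card]
  refine ⟨P.index • a - b', fun g => ?_⟩
  have h1 : f g = f' g + (A.ρ g a - a) := by simp only [f']; abel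
  rw [map_sub, map_nsmul, hb' g, h1]
  simp only [smul_add, smul_sub]
  abel

lemma rc_H1 (A : Rep k G) (P : Subgroup G) [P.FiniteIndex] (x : groupCohomology A 1)
    (hx : map P.subtype (𝟙 (res P.subtype A)) 1 x = 0) : P.index • x = 0 := by
  induction x using H1_induction_on with | h f =>
  rw [H1π_comp_map_apply, H1π_eq_zero_iff] at hx
  obtain ⟨a, ha⟩ := hx
  have ha' : ∀ p : P, A.ρ p a - a = f.1 p := by
    intro p
    exact congrFun ha p
  obtain ⟨b, hb⟩ := rc_cocycle₁ A P f.1 ((mem_cocycles₁_iff f.1).1 f.2) a ha'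
  rw [← map_nsmul, H1π_eq_zero_iff]
  refine ⟨b, ?_⟩
  funext g
  exact hb g

theorem ga2_index_smul_eq_zero_of_res_eq_zero (A : Rep k G) (P : Subgroup G) [P.FiniteIndex]
    (n : ℕ) (x : groupCohomology A (n + 1))
    (hx : map P.subtype (𝟙 (res P.subtype A)) (n + 1) x = 0) : P.index • x = 0 := by
  induction n generalizing A with
  | zero => exact rc_H1 A P x hx
  | succ n ih =>
    -- `δ : Hⁿ⁺¹(G, dsUp A) ≅ Hⁿ⁺²(G, A)`
    have hiso := ir_isIso_δ A n
    have hisoP := ir_isIso_δ_res A P n
    have hsq := ga_δ_naturality P.subtype (dsSES_shortExact A) (ir_resSES_shortExact A P)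
      (𝟙 _) (n + 1) (n + 1 + 1) rfl
    -- surjectivity of δ
    obtain ⟨y, rfl⟩ : ∃ y, δ (dsSES_shortExact A) (n + 1) (n + 1 + 1) rfl y = x := by
      have := (ModuleCat.epi_iff_surjective _).1
        (inferInstance : Epi (δ (dsSES_shortExact A) (n + 1) (n + 1 + 1) rfl))
      exact this x
    have h1 : (δ (ir_resSES_shortExact A P) (n + 1) (n + 1 + 1) rfl)
        (map P.subtype (𝟙 (res P.subtype (dsUp A))) (n + 1) y) = 0 := by
      have := congrArg (fun φ => φ y) (congrArg ModuleCat.Hom.hom hsq)
      simp only [ModuleCat.hom_comp, LinearMap.comp_apply] at this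
      exact this.symm.trans hx
    have h2 : map P.subtype (𝟙 (res P.subtype (dsUp A))) (n + 1) y = 0 := by
      have hinj := (ModuleCat.mono_iff_injective _).1
        (inferInstance : Mono (δ (ir_resSES_shortExact A P) (n + 1) (n + 1 + 1) rfl))
      apply hinj
      exact h1.trans (map_zero _).symm
    have h3 := ih (dsUp A) y h2
    have h4 := map_nsmul (δ (dsSES_shortExact A) (n + 1) (n + 1 + 1) rfl).hom P.index y
    exact h4.symm.trans ((congrArg _ h3).trans (map_zero _))

end Fermat.Agent.S55
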