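/-
S55 / Alg, leaf H3-I: a multiplicative 3-cocycle whose restriction to a subgroup `P` of finite
index is a coboundary has its `[G : P]`-th power a coboundary.
-/
import Mathlib
import Fermat.Agent.S55.Alg.H3Mul
import Fermat.Agent.S55.Alg.ResCores

set_option autoImplicit false

namespace Fermat.Agent.S55

open CategoryTheory CategoryTheory.Limits groupCohomology Rep

section U0

variable {G : Type} [Group G] {X : Type} [CommGroup X] [MulDistribMulAction G X]

/-- restriction to a subgroup, with identity coefficients: `mulCoeffHom` is the identity -/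
theorem h3i_map_mulCoeffHom_subtype (P : Subgroup G)
    (hj : ∀ (h : P) (x : X), (MonoidHom.id X) (P.subtype h • x) = h • (MonoidHom.id X) x)
    (x : groupCohomology (Rep.ofMulDistribMulAction G X) 3) :
    map P.subtype (mulCoeffHom P.subtype (MonoidHom.id X) hj) 3 x =
      map P.subtype (𝟙 (res P.subtype (Rep.ofMulDistribMulAction G X))) 3 x := by
  have h : map P.subtype (mulCoeffHom P.subtype (MonoidHom.id X) hj) 3 =
      map P.subtype (𝟙 (res P.subtype (Rep.ofMulDistribMulAction G X))) 3 := by
    refine map_congr rfl ?_ 3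
    refine LinearMap.ext fun a => ?_
    exact mulCoeffHom_hom_apply P.subtype (MonoidHom.id X) hj a
  exact congrArg (fun ψ => ψ.hom x) h

/-- `cor ∘ res = index` in degree 3, cocycle form -/
theorem isMulCoboundary₃_pow_index_of_restrict (P : Subgroup G) [P.FiniteIndex]
    (f : G × G × G → X) (hf : IsMulCocycle₃ f)
    (hres : IsMulCoboundary₃ (fun p : P × P × P => f ((p.1 : G), (p.2.1 : G), (p.2.2 : G)))) :
    IsMulCoboundary₃ (f ^ P.index) := by
  have hj : ∀ (h : P) (x : X), (MonoidHom.id X) (P.subtype h • x) = h • (MonoidHom.id X) x :=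
    fun _ _ => rfl
  rw [← mulH3π_eq_zero_iff (f ^ P.index) (hf.pow P.index), mulH3π_pow f hf P.index]
  have key := ga2_index_smul_eq_zero_of_res_eq_zero (Rep.ofMulDistribMulAction G X) P 2
    (mulH3π f hf)
  apply key
  have h1 := h3i_map_mulCoeffHom_subtype P hj (mulH3π f hf)
  have h2 := map_mulH3π P.subtype (MonoidHom.id X) hj f hf
  have h3 : mulH3π (pullCochain₃ P.subtype (MonoidHom.id X) f)
      (pullCochain₃_isMulCocycle₃ P.subtype (MonoidHom.id X) hj f hf) = 0 :=
    (mulH3π_eq_zero_iff _ _).mpr hres
  exact h1.symm.trans (h2.trans h3)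

end U0

end Fermat.Agent.S55
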