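import Mathlib
import Fermat.Agent.S55.Alg.DimShiftDefs

set_option autoImplicit false

/-!
# S55 / Alg, leaf SH-a: Shapiro's lemma for a module that "is" coinduced, abstract form

`A : Rep k G`, `D ≤ G`, `B : Rep k D`, `π : res D.subtype A ⟶ B` such that
`a ↦ (g ↦ π (g a))` is a bijection of `A` onto `coind D.subtype B`. Then `A ≅ coind D.subtype B`
as representations of `G`, hence `Hⁿ(G, A) ≅ Hⁿ(D, B)` by Mathlib's `groupCohomology.coindIso`.
-/

namespace Fermat.Agent.S55

open CategoryTheory CategoryTheory.Limits groupCohomology Rep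

universe u

variable {k G : Type u} [CommRing k] [Group G]

/-- the map `A → Fun(G, B)`, `a ↦ (g ↦ π (g a))` -/
def ga7Unit {A : Rep k G} {D : Subgroup G} {B : Rep k D} (π : res D.subtype A ⟶ B) (a : A.V) :
    G → B.V := fun g => π.hom (A.ρ g a)

theorem ga7Unit_mem {A : Rep k G} {D : Subgroup G} {B : Rep k D} (π : res D.subtype A ⟶ B)
    (a : A.V) : ga7Unit π a ∈ Representation.coindV D.subtype B.ρ := by
  intro d g
  change π.hom (A.ρ (D.subtype d * g) a) = B.ρ d (π.hom (A.ρ g a))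
  rw [map_mul]
  exact hom_comm_apply π d (A.ρ g a)

/-- the morphism `A ⟶ coind D.subtype B` adjoint to `π : res D.subtype A ⟶ B` -/
noncomputable def ga7Hom {A : Rep k G} {D : Subgroup G} {B : Rep k D} (π : res D.subtype A ⟶ B) :
    A ⟶ coind D.subtype B :=
  resCoindHomEquiv.{u} D.subtype A B π

lemma ga7Hom_apply_coe {A : Rep k G} {D : Subgroup G} {B : Rep k D} (π : res D.subtype A ⟶ B)
    (a : A.V) : ((ga7Hom π).hom a).1 = ga7Unit π a := rfl

lemma ga7Hom_bijective {A : Rep k G} {D : Subgroup G} {B : Rep k D} (π : res D.subtype A ⟶ B)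
    (hπ : ∀ F ∈ Representation.coindV D.subtype B.ρ, ∃! a : A.V, ga7Unit π a = F) :
    Function.Bijective (ga7Hom π).hom := by
  constructor
  · intro a b hab
    obtain ⟨c, -, hc⟩ := hπ (ga7Unit π a) (ga7Unit_mem π a)
    have h1 : ga7Unit π b = ga7Unit π a := by
      rw [← ga7Hom_apply_coe, ← ga7Hom_apply_coe, hab]
    rw [hc a rfl, hc b h1]
  · intro F
    obtain ⟨a, ha, -⟩ := hπ F.1 F.2
    exact ⟨a, Subtype.ext ha⟩

lemma ga7Hom_isIso {A : Rep k G} {D : Subgroup G} {B : Rep k D} (π : res D.subtype A ⟶ B)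
    (hπ : ∀ F ∈ Representation.coindV D.subtype B.ρ, ∃! a : A.V, ga7Unit π a = F) :
    IsIso (ga7Hom π) :=
  (ConcreteCategory.isIso_iff_bijective (ga7Hom π)).2 (ga7Hom_bijective π hπ)

/-- the isomorphism `A ≅ coind D.subtype B` when `A` "is" coinduced via `π` -/
noncomputable def ga7RepIso {A : Rep k G} {D : Subgroup G} {B : Rep k D}
    (π : res D.subtype A ⟶ B)
    (hπ : ∀ F ∈ Representation.coindV D.subtype B.ρ, ∃! a : A.V, ga7Unit π a = F) :
    A ≅ coind D.subtype B :=
  @asIso _ _ _ _ (ga7Hom π) (ga7Hom_isIso π hπ)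

@[simp] lemma ga7RepIso_hom {A : Rep k G} {D : Subgroup G} {B : Rep k D}
    (π : res D.subtype A ⟶ B)
    (hπ : ∀ F ∈ Representation.coindV D.subtype B.ρ, ∃! a : A.V, ga7Unit π a = F) :
    (ga7RepIso π hπ).hom = ga7Hom π := rfl

theorem ga7_nonempty_iso {A : Rep k G} {D : Subgroup G} {B : Rep k D} (π : res D.subtype A ⟶ B)
    (hπ : ∀ F ∈ Representation.coindV D.subtype B.ρ, ∃! a : A.V, ga7Unit π a = F) (n : ℕ) :
    Nonempty (groupCohomology A n ≅ groupCohomology B n) :=
  ⟨(groupCohomology.functor k G n).mapIso (ga7RepIso π hπ) ≪≫ groupCohomology.coindIso B n⟩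

end Fermat.Agent.S55
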