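import Mathlib
import Fermat.Agent.S55.Alg.DimShiftDefs
import Fermat.Agent.S55.Alg.DimShiftAcyclic
import Fermat.Agent.S55.Alg.DeltaNat
import Fermat.Agent.S55.Alg.ShapiroIso

set_option autoImplicit false

/-!
# S55 / Alg, leaf SH-b: the explicit Shapiro map is an isomorphism

For `π : res D.subtype A ⟶ B` exhibiting `A` as coinduced from `B`, the map
`map D.subtype π n : Hⁿ(G, A) ⟶ Hⁿ(D, B)` ("restrict to `D`, then apply `π`") is an isomorphism.
Reduction to `A = coind D.subtype B`, `π =` evaluation at `1`; then induction on `n` by dimension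
shifting in `B`.
-/

namespace Fermat.Agent.S55

open CategoryTheory CategoryTheory.Limits groupCohomology Rep

universe u

variable {k G : Type u} [CommRing k] [Group G] {D : Subgroup G}

/-- evaluation at `1`, the counit `res D (coind B) ⟶ B` -/
noncomputable def sheEv (B : Rep.{u, u, u} k D) : res D.subtype (coind D.subtype B) ⟶ B :=
  (resCoindHomEquiv.{u} D.subtype (coind D.subtype B) B).symm (𝟙 _)

lemma sheEv_apply (B : Rep.{u, u, u} k D) (F : Representation.coindV D.subtype B.ρ) :
    (sheEv B).hom F = F.1 1 := rfl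

lemma sheEv_naturality {B B' : Rep.{u, u, u} k D} (f : B ⟶ B') :
    (resFunctor.{u} D.subtype).map (coindMap D.subtype f) ≫ sheEv B' = sheEv B ≫ f := by
  ext F
  rfl

lemma she_factor {A : Rep.{u, u, u} k G} {B : Rep.{u, u, u} k D} (π : res D.subtype A ⟶ B) :
    (resFunctor.{u} D.subtype).map (ga7Hom π) ≫ sheEv B = π := by
  ext a
  change π.hom (A.ρ 1 a) = π.hom a
  rw [map_one]
  rfl

/-- the explicit Shapiro map for a coinduced module -/
noncomputable abbrev sheθ (B : Rep.{u, u, u} k D) (n : ℕ) :
    groupCohomology (coind D.subtype B) n ⟶ groupCohomology B n :=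
  map D.subtype (sheEv B) n

lemma sheθ_naturality {B B' : Rep.{u, u, u} k D} (f : B ⟶ B') (n : ℕ) :
    map (MonoidHom.id G) (coindMap D.subtype f) n ≫ sheθ B' n =
      sheθ B n ≫ map (MonoidHom.id D) f n := by
  have h1 := map_comp (A := coind D.subtype B) (B := coind D.subtype B') (C := B')
    (MonoidHom.id G) D.subtype (coindMap D.subtype f) (sheEv B') n
  have h2 := map_comp (A := coind D.subtype B) (B := B) (C := B')
    D.subtype (MonoidHom.id D) (sheEv B) f n
  rw [← h1, ← h2]
  exact map_congr rfl (by rw [sheEv_naturality]; rfl) n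

/-! ### degree 0 -/

/-- degree-0 functoriality on invariants -/
lemma she_H0_apply {H : Type u} [Group H] {A : Rep k H} {B : Rep k G} (f : G →* H)
    (φ : res f A ⟶ B) (x : groupCohomology A 0) :
    ((H0Iso B).hom (map f φ 0 x)).1 = φ.hom ((H0Iso A).hom x).1 := by
  have := map_H0Iso_hom_f_apply f φ x
  exact this

lemma she_coind_ρ_apply (B : Rep.{u, u, u} k D) (g x : G)
    (F : Representation.coindV D.subtype B.ρ) :
    ((coind D.subtype B).ρ g F).1 x = F.1 (x * g) := rfl

lemma she_invariant_const (B : Rep.{u, u, u} k D)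
    (F : (coind D.subtype B).ρ.invariants) (g : G) : F.1.1 g = F.1.1 1 := by
  have h := F.2 g
  have h2 := congrArg (fun E : Representation.coindV D.subtype B.ρ => E.1 1) h
  have h3 := she_coind_ρ_apply B g 1 F.1
  rw [one_mul] at h3
  rw [← h3]
  exact h2

lemma sheθ_zero_bijective (B : Rep.{u, u, u} k D) : Function.Bijective (sheθ (G := G) B 0) := by
  constructor
  · rw [injective_iff_map_eq_zero]
    intro x hx
    have h1 := she_H0_apply D.subtype (sheEv B) x
    rw [hx, map_zero] at h1
    have h2 : ((H0Iso (coind D.subtype B)).hom x) = 0 := by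
      apply Subtype.ext
      apply Subtype.ext
      funext g
      rw [she_invariant_const B _ g]
      exact h1.symm
    have := congrArg (H0Iso (coind D.subtype B)).inv h2
    simpa using this
  · intro y
    set b := (H0Iso B).hom y with hb
    have hb2 : ∀ d : D, B.ρ d b.1 = b.1 := b.2
    let F : Representation.coindV D.subtype B.ρ := ⟨fun _ => b.1, fun d g => (hb2 d).symm⟩
    have hF : F ∈ (coind D.subtype B).ρ.invariants := by
      intro g
      apply Subtype.ext
      funext x
      rfl
    refine ⟨(H0Iso (coind D.subtype B)).inv ⟨F, hF⟩, ?_⟩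
    have h1 := she_H0_apply D.subtype (sheEv B) ((H0Iso (coind D.subtype B)).inv ⟨F, hF⟩)
    have h3 : (H0Iso B).hom (sheθ B 0 ((H0Iso (coind D.subtype B)).inv ⟨F, hF⟩)) =
        (H0Iso B).hom y := by
      apply Subtype.ext
      rw [h1]
      simp only [Iso.inv_hom_id_apply]
      rfl
    have := congrArg (H0Iso B).inv h3
    simpa using this

/-! ### the coinduced dimension shifting sequence -/

/-- the coinduced dimension shifting sequence
`0 ⟶ coind B ⟶ coind Fun(D, B) ⟶ coind (dsUp B) ⟶ 0` -/
noncomputable def sheSES (B : Rep.{u, u, u} k D) : ShortComplex (Rep.{u, u, u} k G) :=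
  (dsSES B).map (coindFunctor k D.subtype)

lemma she_coindMap_apply {B B' : Rep.{u, u, u} k D} (f : B ⟶ B')
    (F : Representation.coindV D.subtype B.ρ) (g : G) :
    ((coindMap D.subtype f).hom F).1 g = f.hom (F.1 g) := rfl

lemma she_coindMap_injective {B B' : Rep.{u, u, u} k D} (f : B ⟶ B')
    (hf : Function.Injective f.hom) :
    Function.Injective (coindMap (H := G) D.subtype f).hom := by
  intro F F' h
  apply Subtype.ext
  funext g
  apply hf
  rw [← she_coindMap_apply, ← she_coindMap_apply, h]

lemma she_coindMap_surjective {B B' : Rep.{u, u, u} k D} (f : B ⟶ B')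
    (hf : Function.Surjective f.hom) :
    Function.Surjective (coindMap (H := G) D.subtype f).hom := by
  have h1 : Epi f := (Rep.epi_iff_surjective _).2 hf
  have h2 : Epi ((coindFunctor k D.subtype).map f) := inferInstance
  exact (Rep.epi_iff_surjective _).1 h2

lemma she_coind_exact (B : Rep.{u, u, u} k D)
    (F : Representation.coindV D.subtype (dsFun B).ρ)
    (hF : (coindMap (H := G) D.subtype (dsπ B)).hom F = 0) :
    ∃ E : Representation.coindV D.subtype B.ρ, (coindMap D.subtype (dsι B)).hom E = F := by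
  have h1 : ∀ g : G, ∃ a : B.V, (dsι B).hom a = F.1 g := by
    intro g
    apply (dsπ_apply_eq_zero_iff B (F.1 g)).1
    rw [← she_coindMap_apply, hF]
    rfl
  choose a ha using h1
  refine ⟨⟨a, ?_⟩, ?_⟩
  · intro d g
    apply dsι_injective B
    have h2 : (dsι B).hom (B.ρ d (a g)) = (dsFun B).ρ d ((dsι B).hom (a g)) :=
      hom_comm_apply (dsι B) d (a g)
    rw [ha, h2, ha]
    exact F.2 d g
  · apply Subtype.ext
    funext g
    exact ha g

lemma sheSES_shortExact (B : Rep.{u, u, u} k D) : (sheSES (G := G) B).ShortExact :=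
  ga_shortExact_of (sheSES B) (she_coindMap_injective (dsι B) (dsι_injective B))
    (she_coindMap_surjective (dsπ B) (dsπ_surjective B)) (she_coind_exact B)

/-- evaluation at `1` as a morphism of short complexes -/
noncomputable def sheSESHom (B : Rep.{u, u, u} k D) :
    (sheSES (G := G) B).map (resFunctor.{u} D.subtype) ⟶ dsSES B :=
  ShortComplex.homMk (sheEv B) (sheEv (dsFun B)) (sheEv (dsUp B))
    (sheEv_naturality (dsι B)) (sheEv_naturality (dsπ B))

lemma she_isZero_coind_fun (B : Rep.{u, u, u} k D) (n : ℕ) :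
    IsZero (groupCohomology (coind.{u, u, u, u} D.subtype (dsFun B)) (n + 1)) :=
  (ds_isZero_fun B n).of_iso (groupCohomology.coindIso (dsFun B) (n + 1))

/-! ### connecting homomorphisms and the induction -/

/-- the connecting homomorphism of the coinduced dimension shifting sequence -/
noncomputable def sheδG (B : Rep.{u, u, u} k D) (i j : ℕ) (hij : i + 1 = j) :
    groupCohomology (coind.{u, u, u, u} (H := G) D.subtype (dsUp B)) i ⟶
      groupCohomology (coind.{u, u, u, u} (H := G) D.subtype B) j :=
  δ (sheSES_shortExact (G := G) B) i j hij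

/-- the connecting homomorphism of the dimension shifting sequence -/
noncomputable def sheδD (B : Rep.{u, u, u} k D) (i j : ℕ) (hij : i + 1 = j) :
    groupCohomology (dsUp B) i ⟶ groupCohomology B j :=
  δ (dsSES_shortExact B) i j hij

/-- compatibility of the explicit Shapiro maps with the connecting homomorphisms -/
lemma sheθ_δ (B : Rep.{u, u, u} k D) (i j : ℕ) (hij : i + 1 = j) :
    sheδG (G := G) B i j hij ≫ sheθ B j = sheθ (dsUp B) i ≫ sheδD B i j hij :=
  ga_δ_naturality D.subtype (sheSES_shortExact B) (dsSES_shortExact B) (sheSESHom B) i j hij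

lemma sheδG_isIso (B : Rep.{u, u, u} k D) (m : ℕ) :
    IsIso (sheδG (G := G) B (m + 1) (m + 1 + 1) rfl) :=
  isIso_δ_of_isZero (sheSES_shortExact (G := G) B) (m + 1) (she_isZero_coind_fun B m)
    (she_isZero_coind_fun B (m + 1))

lemma sheδD_isIso (B : Rep.{u, u, u} k D) (m : ℕ) :
    IsIso (sheδD B (m + 1) (m + 1 + 1) rfl) :=
  isIso_δ_of_isZero (dsSES_shortExact B) (m + 1) (ds_isZero_fun B m) (ds_isZero_fun B (m + 1))

lemma sheδG_surjective (B : Rep.{u, u, u} k D) :
    Function.Surjective (sheδG (G := G) B 0 1 rfl) :=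
  (ModuleCat.epi_iff_surjective _).1
    (epi_δ_of_isZero (sheSES_shortExact (G := G) B) 0 (she_isZero_coind_fun B 0))

lemma sheδD_surjective (B : Rep.{u, u, u} k D) :
    Function.Surjective (sheδD B 0 1 rfl) :=
  (ModuleCat.epi_iff_surjective _).1
    (epi_δ_of_isZero (dsSES_shortExact B) 0 (ds_isZero_fun B 0))

lemma sheδD_exact (B : Rep.{u, u, u} k D) (z : groupCohomology (dsUp B) 0)
    (hz : sheδD B 0 1 rfl z = 0) :
    ∃ v : groupCohomology (dsFun B) 0, map (MonoidHom.id D) (dsπ B) 0 v = z :=
  (ShortComplex.moduleCat_exact_iff _).1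
    (mapShortComplex₃_exact (dsSES_shortExact B) (i := 0) (j := 1) rfl) z hz

lemma sheδG_zero (B : Rep.{u, u, u} k D)
    (u : groupCohomology (coind.{u, u, u, u} (H := G) D.subtype (dsFun B)) 0) :
    sheδG (G := G) B 0 1 rfl (map (MonoidHom.id G) (coindMap D.subtype (dsπ B)) 0 u) = 0 :=
  ConcreteCategory.congr_hom
    (mapShortComplex₃ (sheSES_shortExact (G := G) B) (i := 0) (j := 1) rfl).zero u

lemma sheθ_one_bijective (B : Rep.{u, u, u} k D)
    (h0 : ∀ B' : Rep.{u, u, u} k D, Function.Bijective (sheθ (G := G) B' 0)) :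
    Function.Bijective (sheθ (G := G) B 1) := by
  have hδ : ∀ w, sheθ B 1 (sheδG (G := G) B 0 1 rfl w) =
      sheδD B 0 1 rfl (sheθ (dsUp B) 0 w) := by
    intro w
    exact ConcreteCategory.congr_hom (sheθ_δ B 0 1 rfl) w
  have nat : ∀ u, sheθ (dsUp B) 0 (map (MonoidHom.id G) (coindMap D.subtype (dsπ B)) 0 u) =
      map (MonoidHom.id D) (dsπ B) 0 (sheθ (dsFun B) 0 u) := by
    intro u
    exact ConcreteCategory.congr_hom (sheθ_naturality (dsπ B) 0) u
  constructor
  · rw [injective_iff_map_eq_zero]
    intro x hx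
    obtain ⟨w, rfl⟩ := sheδG_surjective B x
    rw [hδ] at hx
    obtain ⟨v, hv⟩ := sheδD_exact B _ hx
    obtain ⟨u, rfl⟩ := (h0 (dsFun B)).2 v
    have hv' : sheθ (dsUp B) 0 (map (MonoidHom.id G) (coindMap D.subtype (dsπ B)) 0 u) =
        sheθ (dsUp B) 0 w := by
      rw [nat]
      exact hv
    have := (h0 (dsUp B)).1 hv'
    rw [← this, sheδG_zero]
  · intro y
    obtain ⟨z, rfl⟩ := sheδD_surjective B y
    obtain ⟨w, rfl⟩ := (h0 (dsUp B)).2 z
    exact ⟨sheδG B 0 1 rfl w, hδ w⟩

theorem sheθ_isIso (n : ℕ) : ∀ B : Rep.{u, u, u} k D, IsIso (sheθ (G := G) B n) := by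
  induction n with
  | zero =>
    intro B
    exact (ConcreteCategory.isIso_iff_bijective _).2 (sheθ_zero_bijective B)
  | succ n ih =>
    intro B
    cases n with
    | zero =>
      exact (ConcreteCategory.isIso_iff_bijective _).2
        (sheθ_one_bijective B fun B' => sheθ_zero_bijective B')
    | succ m =>
      have hG := sheδG_isIso (G := G) B m
      have hD := sheδD_isIso B m
      have hup := ih (dsUp B)
      have e : sheθ (G := G) B (m + 1 + 1) =
          inv (sheδG (G := G) B (m + 1) (m + 1 + 1) rfl) ≫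
            sheθ (dsUp B) (m + 1) ≫ sheδD B (m + 1) (m + 1 + 1) rfl := by
        rw [← sheθ_δ, IsIso.inv_hom_id_assoc]
      rw [e]
      infer_instance

theorem ga7_isIso {A : Rep k G} {D : Subgroup G} {B : Rep k D} (π : res D.subtype A ⟶ B)
    (hπ : ∀ F ∈ Representation.coindV D.subtype B.ρ, ∃! a : A.V, ga7Unit π a = F) (n : ℕ) :
    IsIso (map D.subtype π n) := by
  have h1 : map D.subtype π n = map (MonoidHom.id G) (ga7Hom π) n ≫ sheθ B n := by
    have := map_comp (A := A) (B := coind D.subtype B) (C := B) (MonoidHom.id G) D.subtype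
      (ga7Hom π) (sheEv B) n
    rw [← this]
    exact map_congr rfl (by rw [she_factor]) n
  rw [h1]
  have i1 : IsIso (ga7Hom π) := ga7Hom_isIso π hπ
  have i2 : IsIso (map (MonoidHom.id G) (ga7Hom π) n) :=
    (groupCohomology.functor k G n).map_isIso (ga7Hom π)
  have i3 := sheθ_isIso (G := G) n B
  infer_instance

end Fermat.Agent.S55
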