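import Mathlib
import Fermat.Agent.S55.Alg.DimShiftDefs
import Fermat.Agent.S55.Alg.DimShiftAcyclic

set_option autoImplicit false

/-!
# S55 / Alg, leaf GA6ab: TATE'S SPLITTING MODULE, model-free form

`G` finite, `A : Rep ℤ G`, `u ∈ H²(G, A)` represented by a 2-cocycle `c`. With `I = ker (ε : ℤ[G] → ℤ)`
(`ℤ[G]` realised on `G →₀ ℤ` with left translation) the module `M = A × I` carries the action
`g (a, y) = (g a + Θ_g y, g y)`, `Θ_g (Σ n_h [h]) = Σ n_h c (g, h)`; `0 ⟶ A ⟶ M ⟶ I ⟶ 0` is short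
exact and for every subgroup `S`: `H²(S, I) = 0`, `H¹(S, I)` is generated by the class `y` of
`s ↦ [s] - [1]`, `|S| • y = 0` and `δ y = res u`.
All declarations of this file are prefixed `ts`, except the leaf `ga6_exists_splitting`.
-/

namespace Fermat.Agent.S55

open CategoryTheory CategoryTheory.Limits groupCohomology Rep

section TateSplit1

variable {k G : Type} [CommRing k] [Group G]

/-- `k[G]` as the left translation representation on `G →₀ k` -/
noncomputable def tsZGRep : Representation k G (G →₀ k) where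
  toFun g := Finsupp.lmapDomain k k (g * ·)
  map_one' := by ext h : 2; simp
  map_mul' g h := by ext x : 2; simp [mul_assoc]

@[simp] lemma tsZGRep_single (g h : G) (n : k) :
    tsZGRep g (Finsupp.single h n) = Finsupp.single (g * h) n := by
  simp [tsZGRep]

/-- the augmentation `k[G] → k` -/
noncomputable def tsAug : (G →₀ k) →ₗ[k] k := Finsupp.linearCombination k (fun _ => (1 : k))

omit [Group G] in
@[simp] lemma tsAug_single (h : G) (n : k) : tsAug (Finsupp.single h n) = n := by
  simp [tsAug]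

lemma tsAug_tsZGRep (g : G) : tsAug ∘ₗ tsZGRep g = (tsAug : (G →₀ k) →ₗ[k] k) := by
  ext h
  simp

@[simp] lemma tsAug_tsZGRep_apply (g : G) (y : G →₀ k) : tsAug (tsZGRep g y) = tsAug y :=
  LinearMap.congr_fun (tsAug_tsZGRep g) y

/-- the augmentation ideal -/
noncomputable def tsI : Submodule k (G →₀ k) := LinearMap.ker (tsAug (k := k) (G := G))

omit [Group G] in
lemma mem_tsI {y : G →₀ k} : y ∈ tsI ↔ tsAug y = 0 := LinearMap.mem_ker

lemma tsI_le_comap (g : G) : (tsI (k := k) (G := G)) ≤ tsI.comap (tsZGRep g) := by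
  intro y hy
  simp only [mem_tsI, Submodule.mem_comap] at hy ⊢
  rw [tsAug_tsZGRep_apply, hy]

/-- `k[G]` as an object of `Rep k G` -/
noncomputable def tsZG (k G : Type) [CommRing k] [Group G] : Rep.{0, 0, 0} k G :=
  Rep.of (tsZGRep (k := k) (G := G))

/-- the augmentation ideal as an object of `Rep k G` -/
noncomputable def tsIRep (k G : Type) [CommRing k] [Group G] : Rep.{0, 0, 0} k G :=
  Rep.subrepresentation (tsZG k G) tsI tsI_le_comap

end TateSplit1

section TateSplit2

variable {k G : Type} [CommRing k] [Group G] (A : Rep.{0, 0, 0} k G) (c : G × G → A.V)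

/-- `Θ_g (Σ n_h [h]) = Σ n_h c (g, h)` -/
noncomputable def tsTheta (g : G) : (G →₀ k) →ₗ[k] A.V :=
  Finsupp.linearCombination k (fun h => c (g, h))

@[simp] lemma tsTheta_single (g h : G) (n : k) :
    tsTheta A c g (Finsupp.single h n) = n • c (g, h) := by
  simp [tsTheta]

lemma tsTheta_single_one (g h : G) :
    tsTheta A c g (Finsupp.single h 1) = c (g, h) := by
  simp [tsTheta]

variable {A c}

lemma tsTheta_mul (hc : c ∈ cocycles₂ A) (g' g : G) (y : G →₀ k) :
    A.ρ g' (tsTheta A c g y) + tsTheta A c g' (tsZGRep g y) =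
      tsTheta A c (g' * g) y + tsAug y • c (g', g) := by
  have key : (A.ρ g').comp (tsTheta A c g) + (tsTheta A c g').comp (tsZGRep g) =
      tsTheta A c (g' * g) + (tsAug (k := k) (G := G)).smulRight (c (g', g)) := by
    ext h
    have := (mem_cocycles₂_iff c).1 hc g' g h
    simp only [LinearMap.coe_comp, Function.comp_apply, Finsupp.lsingle_apply, LinearMap.add_apply,
      tsTheta_single, one_smul, tsZGRep_single, LinearMap.smulRight_apply, tsAug_single]
    rw [this, add_comm]
  exact LinearMap.congr_fun key y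

lemma tsTheta_one (hc : c ∈ cocycles₂ A) (y : G →₀ k) :
    tsTheta A c 1 y = tsAug y • c (1, 1) := by
  have key : tsTheta A c 1 = (tsAug (k := k) (G := G)).smulRight (c (1, 1)) := by
    ext h
    simpa using cocycles₂_map_one_fst ⟨c, hc⟩ h
  exact LinearMap.congr_fun key y

variable (A c)

/-- Tate's splitting module: the action `g (a, y) = (g a + Θ_g y, g y)` on `A × I` -/
noncomputable def tsMRep (hc : c ∈ cocycles₂ A) :
    Representation k G (A.V × tsI (k := k) (G := G)) where
  toFun g :=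
    { toFun := fun x => (A.ρ g x.1 + tsTheta A c g x.2.1, ⟨tsZGRep g x.2.1, tsI_le_comap g x.2.2⟩)
      map_add' := fun x y => by
        ext
        · simp only [Prod.fst_add, Prod.snd_add, Submodule.coe_add, map_add]
          abel
        · simp
      map_smul' := fun n x => by
        ext
        · simp
        · simp }
  map_one' := by
    refine LinearMap.ext fun x => ?_
    rcases x with ⟨a, y, hy⟩
    have h0 : tsAug y = 0 := hy
    ext
    · simp [tsTheta_one hc]
    · simp
  map_mul' g' g := by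
    refine LinearMap.ext fun x => ?_
    rcases x with ⟨a, y, hy⟩
    have h0 : tsAug y = 0 := hy
    have := tsTheta_mul hc g' g y
    simp only [h0, zero_smul, add_zero] at this
    ext
    · simp [← this, add_assoc]
    · simp

end TateSplit2

section TateSplit3

variable {k G : Type} [CommRing k] [Group G] (A : Rep.{0, 0, 0} k G) (c : G × G → A.V)
  (hc : c ∈ cocycles₂ A)

@[simp] lemma tsMRep_apply (g : G) (x : A.V × tsI (k := k) (G := G)) :
    tsMRep A c hc g x =
      (A.ρ g x.1 + tsTheta A c g x.2.1, ⟨tsZGRep g x.2.1, tsI_le_comap g x.2.2⟩) := rfl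

/-- Tate's splitting module as an object of `Rep k G` -/
noncomputable def tsM : Rep.{0, 0, 0} k G :=
  Rep.of (X := A.V × tsI (k := k) (G := G)) (tsMRep A c hc)

/-- the inclusion `a ↦ (a, 0)` as an intertwining map -/
noncomputable def tsιI : A.ρ.IntertwiningMap (tsMRep A c hc) :=
  ⟨LinearMap.inl k A.V (tsI (k := k) (G := G)), fun g => by
    ext a
    · simp
    · simp⟩

/-- the projection `(a, y) ↦ y` as an intertwining map -/
noncomputable def tsπI : (tsMRep A c hc).IntertwiningMap
    ((tsZGRep (k := k) (G := G)).subrepresentation tsI tsI_le_comap) :=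
  ⟨LinearMap.snd k A.V (tsI (k := k) (G := G)), fun g => by
    ext x
    · simp
    · simp⟩

/-- the inclusion `a ↦ (a, 0)` -/
noncomputable def tsι : A ⟶ tsM A c hc := Rep.ofHom (tsιI A c hc)

/-- the projection `(a, y) ↦ y` -/
noncomputable def tsπ : tsM A c hc ⟶ tsIRep k G :=
  Rep.ofHom (Y := tsI (k := k) (G := G)) (tsπI A c hc)

@[simp] lemma tsι_apply (a : A.V) : (tsι A c hc).hom a = (a, 0) := rfl

@[simp] lemma tsπ_apply (x : A.V × tsI (k := k) (G := G)) : (tsπ A c hc).hom x = x.2 := rfl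

lemma tsι_comp_tsπ : tsι A c hc ≫ tsπ A c hc = 0 := by
  ext a
  rfl

/-- the short exact sequence `0 ⟶ A ⟶ M ⟶ I ⟶ 0` -/
noncomputable def tsSES : ShortComplex (Rep.{0, 0, 0} k G) :=
  ShortComplex.mk (tsι A c hc) (tsπ A c hc) (tsι_comp_tsπ A c hc)

lemma tsSES_shortExact : (tsSES A c hc).ShortExact := by
  refine ga_shortExact_of (tsSES A c hc) ?_ ?_ ?_
  · intro a b h
    exact congrArg Prod.fst h
  · intro y
    exact ⟨(0, y), rfl⟩
  · rintro ⟨a, y⟩ hx
    refine ⟨a, ?_⟩
    change (a, (0 : tsI)) = (a, y)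
    have : y = 0 := hx
    rw [this]

end TateSplit3

section TateSplit4

variable {k G : Type} [CommRing k] [Group G]

/-- the inclusion `I ⟶ k[G]` -/
noncomputable def tsIncl (k G : Type) [CommRing k] [Group G] : tsIRep k G ⟶ tsZG k G :=
  Rep.subtype (tsZG k G) tsI tsI_le_comap

/-- the augmentation as an intertwining map -/
noncomputable def tsεI (k G : Type) [CommRing k] [Group G] :
    (tsZGRep (k := k) (G := G)).IntertwiningMap (Representation.trivial k G k) :=
  ⟨tsAug, fun g => by
    ext h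
    simp⟩

/-- the augmentation `k[G] ⟶ k` -/
noncomputable def tsε (k G : Type) [CommRing k] [Group G] : tsZG k G ⟶ Rep.trivial k G k :=
  Rep.ofHom (tsεI k G)

@[simp] lemma tsIncl_apply (y : tsI (k := k) (G := G)) : (tsIncl k G).hom y = (y : G →₀ k) := rfl

@[simp] lemma tsε_apply (y : G →₀ k) : (tsε k G).hom y = tsAug y := rfl

lemma tsIncl_comp_tsε : tsIncl k G ≫ tsε k G = 0 := by
  ext y
  exact y.2

/-- the short exact sequence `0 ⟶ I ⟶ k[G] ⟶ k ⟶ 0` -/
noncomputable def tsAugSES (k G : Type) [CommRing k] [Group G] :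
    ShortComplex (Rep.{0, 0, 0} k G) :=
  ShortComplex.mk (tsIncl k G) (tsε k G) tsIncl_comp_tsε

lemma tsAugSES_shortExact : (tsAugSES k G).ShortExact := by
  refine ga_shortExact_of (tsAugSES k G) ?_ ?_ ?_
  · intro a b h
    exact Subtype.ext h
  · intro (n : k)
    exact ⟨Finsupp.single (1 : G) n, tsAug_single 1 n⟩
  · intro y hy
    exact ⟨⟨y, hy⟩, rfl⟩

/-- for finite `G`, `k[G]` is `Fun(G, k)` with right translation, via `[h] ↦ δ_{h⁻¹}` -/
noncomputable def tsFunEquiv [Finite G] :
    (tsZGRep (k := k) (G := G)).Equiv (dsFunRep (k := k) (G := G) k) :=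
  Representation.Equiv.mk
    ((Finsupp.linearEquivFunOnFinite k k G).trans (LinearEquiv.funCongrLeft k k (Equiv.inv G)))
    (fun g => by
      ext h x
      simp only [LinearMap.coe_comp, Function.comp_apply, Finsupp.lsingle_apply, tsZGRep_single,
        LinearEquiv.coe_coe, LinearEquiv.trans_apply, LinearEquiv.funCongrLeft_apply,
        LinearMap.funLeft_apply, Equiv.inv_apply, Finsupp.linearEquivFunOnFinite_apply,
        dsFunRep_apply]
      classical
      rw [Finsupp.single_apply, Finsupp.single_apply]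
      have : g * h = x⁻¹ ↔ h = (x * g)⁻¹ := by
        rw [mul_inv_rev]
        constructor
        · intro h1
          rw [← h1, inv_mul_cancel_left]
        · intro h1
          rw [h1, mul_inv_cancel_left]
      simp only [this])

lemma ts_isZero_res_ZG [Finite G] (S : Subgroup G) (n : ℕ) :
    IsZero (groupCohomology (res S.subtype (tsZG k G)) (n + 1)) := by
  have e1 : tsZG k G ≅ dsFun (Rep.trivial k G k) := Rep.mkIso tsFunEquiv
  have e2 := (groupCohomology.functor k S (n + 1)).mapIso ((resFunctor S.subtype).mapIso e1)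
  exact (ds_isZero_res_fun S.subtype S.subtype_injective (Rep.trivial k G k) n).of_iso e2

end TateSplit4

section TateSplit5

/-- `H¹(S, ℤ) = Hom(S, ℤ) = 0` for a finite group `S` -/
lemma ts_isZero_H1_trivial_int (S : Type) [Group S] [Finite S] :
    IsZero (groupCohomology (Rep.trivial ℤ S ℤ) 1) := by
  refine IsZero.of_iso ?_ (H1IsoOfIsTrivial (Rep.trivial ℤ S ℤ))
  have : Subsingleton (Additive S →+ ℤ) := by
    refine ⟨fun f g => ?_⟩
    have h0 : ∀ f : Additive S →+ ℤ, f = 0 := by
      intro f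
      refine DFunLike.ext _ _ fun x => ?_
      have h1 : (Nat.card S) • f x = 0 := by
        rw [← map_nsmul]
        have : (Nat.card S) • x = 0 := by
          have := pow_card_eq_one' (G := S) (x := Additive.toMul x)
          exact congrArg Additive.ofMul this
        rw [this, map_zero]
      have h2 : Nat.card S ≠ 0 := Nat.card_pos.ne'
      simpa [h2] using h1
    rw [h0 f, h0 g]
  exact ModuleCat.isZero_of_subsingleton _

variable {G : Type} [Group G] [Finite G]

lemma ts_isZero_H1_res_trivial (S : Subgroup G) :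
    IsZero (groupCohomology (res S.subtype (Rep.trivial ℤ G ℤ)) 1) :=
  ts_isZero_H1_trivial_int S

end TateSplit5

section TateSplit6

variable {G : Type} [Group G] [Finite G]

omit [Finite G] in
/-- the augmentation sequence restricted to a subgroup -/
lemma tsAugSES_res_shortExact (S : Subgroup G) :
    ((tsAugSES ℤ G).map (resFunctor S.subtype)).ShortExact :=
  (shortExact_res S.subtype).2 tsAugSES_shortExact

lemma ts_isZero_H2_I (S : Subgroup G) :
    IsZero (groupCohomology (res S.subtype (tsIRep ℤ G)) 2) := by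
  have hex := mapShortComplex₁_exact (tsAugSES_res_shortExact S) (i := 1) (j := 2) rfl
  refine hex.isZero_of_both_zeros ?_ ?_
  · exact (ts_isZero_H1_res_trivial S).eq_of_src _ _
  · exact (ts_isZero_res_ZG (k := ℤ) S 1).eq_of_tgt _ _

end TateSplit6

section TateSplit7

variable {G : Type} [Group G]

/-- the 1-cochain `s ↦ [s] - [1]` with values in `I` -/
noncomputable def tsYfun (S : Subgroup G) : S → tsI (k := ℤ) (G := G) :=
  fun s => ⟨Finsupp.single (s : G) 1 - Finsupp.single 1 1, by simp [mem_tsI]⟩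

lemma tsYfun_comp (S : Subgroup G) :
    ((tsAugSES ℤ G).map (resFunctor S.subtype)).f.hom ∘ tsYfun S =
      d₀₁ (res S.subtype (tsZG ℤ G)) (Finsupp.single (1 : G) (1 : ℤ)) := by
  funext s
  change (Finsupp.single (s : G) (1 : ℤ) - Finsupp.single 1 1 : G →₀ ℤ) =
    tsZGRep (k := ℤ) (s : G) (Finsupp.single (1 : G) (1 : ℤ)) - Finsupp.single 1 1
  rw [tsZGRep_single, mul_one]

/-- the 1-cocycle `s ↦ [s] - [1]` -/
noncomputable def tsYcoc (S : Subgroup G) : cocycles₁ (res S.subtype (tsIRep ℤ G)) :=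
  ⟨tsYfun S, mem_cocycles₁_of_comp_eq_d₀₁ (tsAugSES_res_shortExact S) (tsYfun_comp S)⟩

/-- the class of `s ↦ [s] - [1]` in `H¹(S, I)` -/
noncomputable def tsY (S : Subgroup G) : groupCohomology (res S.subtype (tsIRep ℤ G)) 1 :=
  H1π _ (tsYcoc S)

/-- `1 ∈ H⁰(S, ℤ)` -/
noncomputable def tsOneInv (S : Subgroup G) :
    ((tsAugSES ℤ G).map (resFunctor S.subtype)).X₃.ρ.invariants :=
  ⟨(1 : ℤ), fun _ => rfl⟩

lemma ts_δ_one (S : Subgroup G) :
    δ (tsAugSES_res_shortExact S) 0 1 rfl ((H0Iso _).inv (tsOneInv S)) = tsY S :=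
  δ₀_apply (tsAugSES_res_shortExact S) (tsOneInv S) (Finsupp.single (1 : G) (1 : ℤ))
    (tsAug_single (1 : G) (1 : ℤ)) (tsYfun S) (tsYfun_comp S)

lemma tsOneInv_gen (S : Subgroup G)
    (z : ((tsAugSES ℤ G).map (resFunctor S.subtype)).X₃.ρ.invariants) :
    ∃ m : ℤ, z = m • tsOneInv S := by
  obtain ⟨m', hm⟩ := z
  obtain ⟨m, rfl⟩ : ∃ m : ℤ, m = m' := ⟨m', rfl⟩
  refine ⟨m, ?_⟩
  ext
  change m = m • (1 : ℤ)
  simp

lemma ts_gen [Finite G] (S : Subgroup G)
    (x : groupCohomology (res S.subtype (tsIRep ℤ G)) 1) : ∃ m : ℤ, x = m • tsY S := by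
  have := epi_δ_of_isZero (tsAugSES_res_shortExact S) 0 (ts_isZero_res_ZG (k := ℤ) S 0)
  obtain ⟨z, rfl⟩ := (ModuleCat.epi_iff_surjective
    (δ (tsAugSES_res_shortExact S) 0 1 rfl)).1 inferInstance x
  induction z using H0_induction_on with
  | h z =>
    obtain ⟨m, rfl⟩ := tsOneInv_gen S z
    refine ⟨m, ?_⟩
    rw [map_zsmul, map_zsmul, ts_δ_one]
    rfl

end TateSplit7

section TateSplit8

variable {G : Type} [Group G] [Finite G]

/-- the norm element `Σ_{t ∈ S} [t]` -/
noncomputable def tsNorm (S : Subgroup G) : G →₀ ℤ :=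
  letI : Fintype S := Fintype.ofFinite S
  ∑ t : S, Finsupp.single (t : G) (1 : ℤ)

lemma tsAug_tsNorm (S : Subgroup G) : tsAug (tsNorm S) = (Nat.card S : ℤ) := by
  let _ : Fintype S := Fintype.ofFinite S
  simp [tsNorm, Nat.card_eq_fintype_card]

lemma tsZGRep_tsNorm (S : Subgroup G) (s : S) : tsZGRep (s : G) (tsNorm S) = tsNorm S := by
  let _ : Fintype S := Fintype.ofFinite S
  simp only [tsNorm, map_sum, tsZGRep_single]
  exact Fintype.sum_equiv (Equiv.mulLeft s) _ _ (fun t => rfl)

/-- `|S| [1] - Σ_{t ∈ S} [t] ∈ I` -/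
noncomputable def tsW (S : Subgroup G) : tsI (k := ℤ) (G := G) :=
  ⟨Finsupp.single (1 : G) (Nat.card S : ℤ) - tsNorm S, by simp [mem_tsI, tsAug_tsNorm]⟩

lemma ts_card_smul (S : Subgroup G) : (Nat.card S) • tsY S = 0 := by
  rw [tsY, ← map_nsmul, H1π_eq_zero_iff]
  refine ⟨tsW S, ?_⟩
  funext s
  apply Subtype.ext
  change tsZGRep (k := ℤ) (s : G) (Finsupp.single (1 : G) (Nat.card S : ℤ) - tsNorm S) -
      (Finsupp.single (1 : G) (Nat.card S : ℤ) - tsNorm S) =
    ((Nat.card S) • (Finsupp.single (s : G) (1 : ℤ) - Finsupp.single 1 1 : G →₀ ℤ) : G →₀ ℤ)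
  rw [map_sub, tsZGRep_tsNorm, tsZGRep_single, mul_one, smul_sub, Finsupp.smul_single,
    Finsupp.smul_single]
  simp

end TateSplit8

section TateSplit9

variable {G : Type} [Group G] (A : Rep.{0, 0, 0} ℤ G) (c : G × G → A.V) (hc : c ∈ cocycles₂ A)

lemma tsSES_res_shortExact (S : Subgroup G) :
    ((tsSES A c hc).map (resFunctor S.subtype)).ShortExact :=
  (shortExact_res S.subtype).2 (tsSES_shortExact A c hc)

/-- the lift `s ↦ (c (1, 1), [s] - [1])` of the cocycle `s ↦ [s] - [1]` to `M` -/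
noncomputable def tsLift (S : Subgroup G) : S → A.V × tsI (k := ℤ) (G := G) :=
  fun s => (c (1, 1), tsYfun S s)

/-- the restriction of the cocycle `c` to `S` -/
def tsResC (S : Subgroup G) : S × S → A.V := fun p => c ((p.1 : G), (p.2 : G))

lemma tsLift_comp (S : Subgroup G) :
    ((tsSES A c hc).map (resFunctor S.subtype)).g.hom ∘ tsLift A c S = tsYcoc S := rfl

lemma tsResC_comp (S : Subgroup G) :
    ((tsSES A c hc).map (resFunctor S.subtype)).f.hom ∘ tsResC A c S =
      d₁₂ ((tsSES A c hc).map (resFunctor S.subtype)).X₂ (tsLift A c S) := by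
  funext ⟨s, t⟩
  have h1 := cocycles₂_map_one_snd ⟨c, hc⟩ (s : G)
  change c ((s : G), (1 : G)) = A.ρ (s : G) (c (1, 1)) at h1
  change ((c ((s : G), (t : G)), (0 : tsI (k := ℤ) (G := G))) : A.V × tsI (k := ℤ) (G := G)) =
    tsMRep A c hc (s : G) (tsLift A c S t) - tsLift A c S (s * t) + tsLift A c S s
  ext
  · simp [tsLift, tsYfun, map_sub, h1, tsTheta_single_one, -tsTheta_single]
  · simp [tsLift, tsYfun, map_sub]

lemma ts_δ_tsY (S : Subgroup G) :
    δ (tsSES_res_shortExact A c hc S) 1 2 rfl (tsY S) =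
      map S.subtype (𝟙 (res S.subtype A)) 2 (H2π A ⟨c, hc⟩) := by
  have h1 := δ₁_apply (tsSES_res_shortExact A c hc S) (tsYcoc S) (tsLift A c S)
    (tsLift_comp A c hc S) (tsResC A c S) (tsResC_comp A c hc S)
  have h2 := H2π_comp_map_apply S.subtype (𝟙 (res S.subtype A)) ⟨c, hc⟩
  rw [h2]
  exact h1

end TateSplit9

theorem ga6_exists_splitting {G : Type} [Group G] [Finite G] (A : Rep ℤ G)
    (u : groupCohomology A 2) :
    ∃ (M I : Rep ℤ G) (i : A ⟶ M) (p : M ⟶ I) (w : i ≫ p = 0)
      (hX : (ShortComplex.mk i p w).ShortExact),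
      ∀ S : Subgroup G,
        IsZero (groupCohomology (res S.subtype I) 2) ∧
        ∃ y : groupCohomology (res S.subtype I) 1,
          (∀ x : groupCohomology (res S.subtype I) 1, ∃ m : ℤ, x = m • y) ∧
          (Nat.card S) • y = 0 ∧
          δ ((shortExact_res S.subtype).2 hX) 1 2 rfl y = map S.subtype (𝟙 _) 2 u := by
  obtain ⟨⟨c, hc⟩, rfl⟩ := (ModuleCat.epi_iff_surjective (H2π A)).1 inferInstance u
  exact ⟨tsM A c hc, tsIRep ℤ G, tsι A c hc, tsπ A c hc, tsι_comp_tsπ A c hc,
    tsSES_shortExact A c hc, fun S => ⟨ts_isZero_H2_I S, tsY S, ts_gen S, ts_card_smul S,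
      ts_δ_tsY A c hc S⟩⟩

end Fermat.Agent.S55
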