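import Mathlib
import Fermat.Agent.S55.Alg.InfResN
import Fermat.Agent.S55.Alg.CycPeriod
import Fermat.Agent.S55.CohomSylowGen

set_option autoImplicit false

/-!
# S55 / Alg, leaf GA-6c: twin vanishing

If `H¹(H, M) = H²(H, M) = 0` for every group `H` mapping injectively to the finite group `G`, then
`H³(G, M) = 0`.
-/

namespace Fermat.Agent.S55

open CategoryTheory CategoryTheory.Limits groupCohomology Rep

universe u

variable {k : Type u} [CommRing k]

/-- the twin vanishing hypothesis -/
def GaTwin {G : Type u} [Group G] (M : Rep k G) : Prop :=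
  ∀ (H : Type u) [Group H] (f : H →* G), Function.Injective f →
    IsZero (groupCohomology (res f M) 1) ∧ IsZero (groupCohomology (res f M) 2)

lemma GaTwin.res {G H : Type u} [Group G] [Group H] {M : Rep k G} (h : GaTwin M) (f : H →* G)
    (hf : Function.Injective f) : GaTwin (res f M) := by
  intro K _ g hg
  exact h K (f.comp g) (hf.comp hg)

lemma GaTwin.self {G : Type u} [Group G] {M : Rep k G} (h : GaTwin M) :
    IsZero (groupCohomology M 1) ∧ IsZero (groupCohomology M 2) :=
  h G (MonoidHom.id G) Function.injective_id

theorem ga6_twin_pgroup (p : ℕ) [Fact p.Prime] : ∀ (n : ℕ) (G : Type u) [Group G] [Finite G],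
    Nat.card G = p ^ n → ∀ M : Rep k G, GaTwin M → IsZero (groupCohomology M 3) := by
  intro n
  induction n with
  | zero =>
    intro G _ _ hc M _
    rw [pow_zero] at hc
    have : Subsingleton G := (Nat.card_eq_one_iff_unique.1 hc).1
    exact isZero_groupCohomology_succ_of_subsingleton M 2
  | succ n ih =>
    intro G _ _ hc M hM
    have hp : p.Prime := Fact.out
    obtain ⟨N, hN⟩ := Sylow.exists_subgroup_card_pow_prime (G := G) p (n := n)
      (by rw [hc]; exact pow_dvd_pow p (Nat.le_succ n))
    have hidx : N.index = p := by
      have h := N.card_mul_index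
      rw [hN, hc, pow_succ] at h
      exact Nat.eq_of_mul_eq_mul_left (pow_pos hp.pos n) h
    have : N.Normal := Subgroup.normal_of_index_eq_minFac_card (by
      rw [hidx, hc, hp.pow_minFac (Nat.succ_ne_zero n)])
    have h3N : IsZero (groupCohomology (res N.subtype M) 3) :=
      ih N hN (res N.subtype M) (hM.res _ N.subtype_injective)
    have : IsCyclic (G ⧸ N) := isCyclic_of_prime_card (p := p) (by
      rw [← Subgroup.index_eq_card]; exact hidx)
    have h1Q' : IsZero (H1InfRes M N).X₁ :=
      IsZero.of_mono (H1InfRes M N).f (show IsZero (H1InfRes M N).X₂ from hM.self.1)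
    have h1Q : IsZero (groupCohomology (M.quotientToInvariants N) 1) := h1Q'
    have h3Q : IsZero (groupCohomology (M.quotientToInvariants N) 3) :=
      ga4_isZero_H3_of_isZero_H1 (M.quotientToInvariants N) h1Q
    have hex := gaInfRes_exact M N 2 (fun i hi hi3 => by
      have hN' := hM N N.subtype N.subtype_injective
      obtain rfl | rfl : i = 1 ∨ i = 2 := by omega
      · exact hN'.1
      · exact hN'.2)
    exact hex.isZero_X₂ (h3Q.eq_zero_of_src _) (h3N.eq_zero_of_tgt _)

variable {G : Type u} [Group G]

theorem ga6_isZero_H3_of_twin [Finite G] (M : Rep k G)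
    (h : ∀ (H : Type u) [Group H] (f : H →* G), Function.Injective f →
      IsZero (groupCohomology (res f M) 1) ∧ IsZero (groupCohomology (res f M) 2)) :
    IsZero (groupCohomology M 3) := by
  have hM : GaTwin M := h
  have : Subsingleton (groupCohomology M 3) := by
    apply ga2_subsingleton_of_sylow M 3
    intro p _ Q
    obtain ⟨n, hn⟩ := IsPGroup.iff_card.1 Q.isPGroup'
    exact ModuleCat.subsingleton_of_isZero
      (ga6_twin_pgroup p n (Q : Subgroup G) hn (res (Q : Subgroup G).subtype M)
        (hM.res _ (Q : Subgroup G).subtype_injective))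
  exact ModuleCat.isZero_of_subsingleton _

/-- the subgroup form of the hypothesis suffices -/
theorem ga6_twin_of_subgroups (M : Rep k G)
    (h : ∀ S : Subgroup G, IsZero (groupCohomology (res S.subtype M) 1) ∧
      IsZero (groupCohomology (res S.subtype M) 2))
    (H : Type u) [Group H] (f : H →* G) (hf : Function.Injective f) :
    IsZero (groupCohomology (res f M) 1) ∧ IsZero (groupCohomology (res f M) 2) := by
  have e : ∀ n, groupCohomology (res f M) n ≅ groupCohomology (res f.range.subtype M) n :=
    fun n => mapIso (A := res f.range.subtype M) (B := res f M) (MonoidHom.ofInjective hf)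
      (LinearEquiv.refl k M.V) (fun g => rfl) n
  exact ⟨IsZero.of_iso (h f.range).1 (e 1), IsZero.of_iso (h f.range).2 (e 2)⟩

end Fermat.Agent.S55
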