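import Mathlib
import Fermat.Agent.S55.Alg.DimShiftDefs
import Fermat.Agent.S55.Alg.TateSplit
import Fermat.Agent.S55.Alg.TwinVanish

set_option autoImplicit false

/-!
# S55 / Alg, GA6d: the cheap form of Tate's theorem

`H¹(S, A) = 0` and `H²(S, A)` cyclic of order `|S|` generated by `res u` for all `S ≤ G`
imply `H³(G, A) = 0`.
-/

namespace Fermat.Agent.S55

open CategoryTheory CategoryTheory.Limits groupCohomology Rep

universe u

section Abstract

variable {k G : Type u} [CommRing k] [Group G] {X : ShortComplex (Rep k G)} (hX : X.ShortExact)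

include hX

/-- if `δ : H¹(X₃) ⟶ H²(X₁)` is injective and `H¹(X₁) = 0` then `H¹(X₂) = 0` -/
theorem ga6_isZero_H1_mid (h1 : IsZero (groupCohomology X.X₁ 1)) (hm : Mono (δ hX 1 2 rfl)) :
    IsZero (groupCohomology X.X₂ 1) := by
  have hg : (mapShortComplex₃ hX (i := 1) (j := 2) rfl).f = 0 :=
    @zero_of_comp_mono _ _ _ _ _ _ _ (δ hX 1 2 rfl) hm
      (mapShortComplex₃ hX (i := 1) (j := 2) rfl).zero
  have hex := mapShortComplex₂_exact hX 1
  have he : Epi (mapShortComplex₂ X 1).f := hex.epi_f hg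
  exact @IsZero.of_epi _ _ _ _ _ (mapShortComplex₂ X 1).f he h1

/-- if `δ : H¹(X₃) ⟶ H²(X₁)` is surjective and `H²(X₃) = 0` then `H²(X₂) = 0` -/
theorem ga6_isZero_H2_mid (h2 : IsZero (groupCohomology X.X₃ 2)) (he : Epi (δ hX 1 2 rfl)) :
    IsZero (groupCohomology X.X₂ 2) := by
  have hf : (mapShortComplex₁ hX (i := 1) (j := 2) rfl).g = 0 :=
    @zero_of_epi_comp _ _ _ _ _ _ (δ hX 1 2 rfl) _ he
      (mapShortComplex₁ hX (i := 1) (j := 2) rfl).zero
  have hex := mapShortComplex₂_exact hX 2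
  have hm : Mono (mapShortComplex₂ X 2).g := hex.mono_g hf
  exact @IsZero.of_mono _ _ _ _ _ (mapShortComplex₂ X 2).g hm h2

/-- if `H²(X₃) = 0` and `H³(X₂) = 0` then `H³(X₁) = 0` -/
theorem ga6_isZero_H3_left (h2 : IsZero (groupCohomology X.X₃ 2))
    (h3 : IsZero (groupCohomology X.X₂ 3)) : IsZero (groupCohomology X.X₁ 3) := by
  have hex := mapShortComplex₁_exact hX (i := 2) (j := 3) rfl
  have hm : Mono (mapShortComplex₁ hX (i := 2) (j := 3) rfl).g :=
    hex.mono_g (h2.eq_of_src _ _)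
  exact @IsZero.of_mono _ _ _ _ _ (mapShortComplex₁ hX (i := 2) (j := 3) rfl).g hm h3

end Abstract

/-- a surjection from a cyclic group killed by `n` onto a group with `n` elements is bijective -/
theorem ga6_bijective_of_card {M N : ModuleCat.{0} ℤ} (d : M ⟶ N) (y : M) (n : ℕ) (hn : 0 < n)
    (hgen : ∀ x : M, ∃ m : ℤ, x = m • y) (hy : n • y = 0)
    (hgenN : ∀ x : N, ∃ m : ℤ, x = m • d y) (hcard : Nat.card N = n) :
    Function.Bijective d := by
  have hsurj : Function.Surjective d := by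
    intro x
    obtain ⟨m, rfl⟩ := hgenN x
    exact ⟨m • y, map_zsmul d.hom m y⟩
  have hg : Function.Surjective (fun r : Fin n => ((r : ℕ) : ℤ) • y) := by
    intro x
    obtain ⟨m, rfl⟩ := hgen x
    have hn' : (n : ℤ) ≠ 0 := by exact_mod_cast hn.ne'
    have hr0 : 0 ≤ m % (n : ℤ) := Int.emod_nonneg m hn'
    have hr1 : m % (n : ℤ) < n := Int.emod_lt_of_pos m (by exact_mod_cast hn)
    refine ⟨⟨(m % (n : ℤ)).toNat, by omega⟩, ?_⟩
    show (((m % (n : ℤ)).toNat : ℕ) : ℤ) • y = m • y
    rw [Int.toNat_of_nonneg hr0]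
    conv_rhs => rw [← Int.emod_add_mul_ediv m n]
    have hy' : (n : ℤ) • y = 0 := by rw [natCast_zsmul]; exact hy
    rw [add_zsmul, mul_comm, mul_zsmul, hy', zsmul_zero, add_zero]
  have hfin : Finite M := Finite.of_surjective _ hg
  have hle : Nat.card M ≤ Nat.card N := by
    rw [hcard]
    have := Nat.card_le_card_of_surjective _ hg
    simpa using this
  exact hsurj.bijective_of_nat_card_le hle

/-- `H²(G, I) = 0` from the vanishing over the subgroup `⊤` -/
theorem ga6_isZero_of_top {G : Type} [Group G] (I : Rep ℤ G) (n : ℕ)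
    (h : IsZero (groupCohomology (res (⊤ : Subgroup G).subtype I) n)) :
    IsZero (groupCohomology I n) := by
  have e : groupCohomology (res (⊤ : Subgroup G).subtype I) n ≅ groupCohomology I n :=
    mapIso (A := I) (B := res (⊤ : Subgroup G).subtype I) Subgroup.topEquiv
      (@LinearEquiv.refl ℤ I.V _ _ I.hV2) (fun _ => rfl) n
  exact IsZero.of_iso h e.symm

/-- GA6d: the cheap form of Tate's theorem -/
theorem ga6_tate_isZero_H3 {G : Type} [Group G] [Finite G] (A : Rep ℤ G)
    (u : groupCohomology A 2)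
    (h1 : ∀ S : Subgroup G, IsZero (groupCohomology (res S.subtype A) 1))
    (h2 : ∀ S : Subgroup G,
      (∀ x : groupCohomology (res S.subtype A) 2, ∃ m : ℤ, x = m • map S.subtype (𝟙 _) 2 u) ∧
      Nat.card (groupCohomology (res S.subtype A) 2) = Nat.card S) :
    IsZero (groupCohomology A 3) := by
  obtain ⟨M, I, i, p, w, hX, hS⟩ := ga6_exists_splitting A u
  have htwin : ∀ S : Subgroup G, IsZero (groupCohomology (res S.subtype M) 1) ∧
      IsZero (groupCohomology (res S.subtype M) 2) := by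
    intro S
    obtain ⟨hI2, y, hgen, hy, hδ⟩ := hS S
    have hXS := (shortExact_res S.subtype).2 hX
    have hbij : Function.Bijective (δ hXS 1 2 rfl) :=
      ga6_bijective_of_card (δ hXS 1 2 rfl) y (Nat.card S) Nat.card_pos hgen hy
        (by rw [hδ]; exact (h2 S).1) (h2 S).2
    have hm : Mono (δ hXS 1 2 rfl) := (ModuleCat.mono_iff_injective _).2 hbij.1
    have he : Epi (δ hXS 1 2 rfl) := (ModuleCat.epi_iff_surjective _).2 hbij.2
    exact ⟨ga6_isZero_H1_mid hXS (h1 S) hm, ga6_isZero_H2_mid hXS hI2 he⟩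
  have hM3 : IsZero (groupCohomology M 3) :=
    ga6_isZero_H3_of_twin M (ga6_twin_of_subgroups M htwin)
  have hI2 : IsZero (groupCohomology I 2) := ga6_isZero_of_top I 2 (hS ⊤).1
  exact ga6_isZero_H3_left hX hI2 hM3

end Fermat.Agent.S55
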