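import Fermat.Agent.S55.Alg.DimShiftDefs
import Fermat.Agent.S55.Alg.DimShiftAcyclic
import Fermat.Agent.S55.Alg.DeltaNat
import Fermat.Agent.S55.Alg.DimShiftInv
import Fermat.Agent.S55.Alg.InfResN
import Fermat.Agent.S55.Alg.CycPeriod
import Fermat.Agent.S55.Alg.TwinVanish
import Fermat.Agent.S55.Alg.TateSplit
import Fermat.Agent.S55.Alg.TateH3
import Fermat.Agent.S55.Alg.ResCores
import Fermat.Agent.S55.Alg.DirectSumVanish
import Fermat.Agent.S55.Alg.CohomDefs3
import Fermat.Agent.S55.Alg.H3Defs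
import Fermat.Agent.S55.Alg.H3Bridge
import Fermat.Agent.S55.Alg.H3Delta
import Fermat.Agent.S55.Alg.H3Mul
import Fermat.Agent.S55.Alg.H3Index
import Fermat.Agent.S55.Alg.ShapiroIso
import Fermat.Agent.S55.Alg.ShapiroExplicit
import Fermat.Agent.S55.CohomSylowGen

/-! S55 / Alg (package GA): the whole sorry-free finite-group-cohomology library in one import. -/
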